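import Fermat.Agent.LT.T7.H62.RigidStrip
import Fermat.Agent.LT.T2.H255.UnramTorus

/-!
# Row LT, tower T7, node T7.14.6b `WhitFormC`: the UNRAMIFIED local factor, explicit (helper941)

OFF-MAIN.  ASSET for the owner of `Rigid.WhitFormC` (helper62, `LT/T7/H62/RigidStrip.lean`,
sha256 9f2a8c042828): the closed leaf T2.10.07 (`UnramTorusC`, helper255) in the vocabulary of
`RigidStrip.lean`, with the EXPLICIT factor `Rigid.locFactor`.

* `whit_eq_wh941`, `dgA_eq_tor941` : `Rigid.whit = T2.H941.wh`, `Rigid.dgA = T2.H941.tor` (`rfl`).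
* `lamPair_eq941` : the recursion `q λ_{m+1} = √q a λ_m - λ_{m-1}`, `λ_0 = 1`, `λ_{-1} = 0` of
  helper255 (`b = 1`) is solved by `λ_m = q^{-m/2} s_m(a)`, `s_m = Rigid.hpoly a m`.
* `lam255_eq_locFactor941` : `lam255 v 0 a 1 n = Rigid.locFactor v a (-n)`.
* `wh_unram941` : at a place `v` where `ψ` has conductor exponent `0`, for a bounded continuous
  left invariant `Φ` which is `GL₂(𝒪_v)`-invariant and a Hecke eigenfunction with eigenvalues
  `(a, 1)`: `W_Φ(diag(y,1) g) = locFactor v a (ord_v y) · W_Φ(g)` for `y` supported at `v` and `g`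
  trivial at `v`.
* `whit_unram941` : the same in the vocabulary of `RigidStrip.lean`.
* `isCondExp_zero_of_unramOutside941`, `isWhitData_of941` : the hypotheses of `WhitFormC` give
  `IsWhitData` and the conductor exponent `0` outside `S`.
-/

set_option autoImplicit false

open IsDedekindDomain NumberField MeasureTheory AutomorphicForm
open IsDedekindDomain.HeightOneSpectrum
open Fermat.Agent.LT.H556.A0
open scoped ComplexConjugate

noncomputable section

namespace Fermat.Agent.LT.T7.H941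

open Fermat.Agent.LT Fermat.Agent.LT.T2.H941 Fermat.Agent.LT.T2.H255 Fermat.Agent.LT.T7

variable {K : Type} [Field K] [NumberField K]

/-! ## 1. The two vocabularies -/

theorem whit_eq_wh941 {m : MeasurableSpace (Adl K)} (ψ : AddChar (Adl K) Circle)
    (ν : Measure (Adl K)) (D : Set (Adl K)) (φ : G K → ℂ) (g : G K) :
    Rigid.whit ψ ν D φ g = wh ψ ν D φ g := rfl

theorem dgA_eq_tor941 (y : (Adl K)ˣ) : Rigid.dgA y = tor y := rfl

/-! ## 2. The recursion is solved by the Hecke polynomials -/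

/-- The recursion of helper255 for `b = 1`, `q = s²`: `λ_m = s^{-m} s_m(a)`. -/
theorem lamPair_eq941 {q s : ℂ} (hq : q = s * s) (hs : s ≠ 0) (a : ℂ) (m : ℕ) :
    (lamPair255 q s a 1 (m + 1)).1 = (s⁻¹) ^ (m + 1) * Rigid.hpoly a (m + 1) ∧
      (lamPair255 q s a 1 m).1 = (s⁻¹) ^ m * Rigid.hpoly a m := by
  induction m with
  | zero =>
    refine ⟨?_, ?_⟩
    · simp only [lamPair255, Rigid.hpoly, zero_add, pow_one, mul_one, mul_zero, sub_zero]
      rw [hq]
      field_simp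
    · simp [lamPair255, Rigid.hpoly]
  | succ m ih =>
    refine ⟨?_, ih.1⟩
    have h1 : (lamPair255 q s a 1 (m + 1 + 1)).1
        = (s * a * (lamPair255 q s a 1 (m + 1)).1 - 1 * (lamPair255 q s a 1 m).1) / q := rfl
    have h2 : Rigid.hpoly a (m + 1 + 1) = a * Rigid.hpoly a (m + 1) - Rigid.hpoly a m := rfl
    rw [h1, ih.1, ih.2, h2, hq]
    generalize Rigid.hpoly a (m + 1) = H1
    generalize Rigid.hpoly a m = H0
    have hst : s * s⁻¹ = 1 := mul_inv_cancel₀ hs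
    rw [div_eq_mul_inv, mul_inv]
    linear_combination (a * s⁻¹ ^ (m + 2) * H1) * hst

theorem lamPair_fst941 {q s : ℂ} (hq : q = s * s) (hs : s ≠ 0) (a : ℂ) (m : ℕ) :
    (lamPair255 q s a 1 m).1 = (s⁻¹) ^ m * Rigid.hpoly a m :=
  (lamPair_eq941 hq hs a m).2

/-- `N v ^ (-m/2) = (√(N v))⁻¹ ^ m`. -/
theorem rpow_neg_half941 (v : HeightOneSpectrum (𝓞 K)) (m : ℕ) :
    (((Rigid.nv v ^ (-((m : ℤ) : ℝ) / 2) : ℝ) : ℝ) : ℂ)
      = (((Real.sqrt (Ideal.absNorm v.asIdeal : ℝ) : ℝ) : ℂ)⁻¹) ^ m := by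
  have hpos : (0 : ℝ) < (Ideal.absNorm v.asIdeal : ℝ) := by
    have h := NumberField.HeightOneSpectrum.one_lt_absNorm v
    exact_mod_cast (by omega : 0 < Ideal.absNorm v.asIdeal)
  have h1 : Rigid.nv v ^ (-((m : ℤ) : ℝ) / 2)
      = ((Real.sqrt (Ideal.absNorm v.asIdeal : ℝ))⁻¹) ^ m := by
    unfold Rigid.nv
    rw [Real.sqrt_eq_rpow, ← Real.rpow_neg hpos.le, ← Real.rpow_natCast,
      ← Real.rpow_mul hpos.le]
    congr 1
    push_cast
    ring
  rw [h1]
  push_cast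
  rfl

/-- The factor of helper255 for the conductor exponent `0` and `b = 1` is the local factor of
`RigidStrip.lean`. -/
theorem lam255_eq_locFactor941 (v : HeightOneSpectrum (𝓞 K)) (a : ℂ) (n : ℤ) :
    lam255 v 0 a 1 n = Rigid.locFactor v a (-n) := by
  have hs : ((Real.sqrt (Ideal.absNorm v.asIdeal : ℝ) : ℝ) : ℂ) ≠ 0 := by
    have hpos : (0 : ℝ) < (Ideal.absNorm v.asIdeal : ℝ) := by
      have h := NumberField.HeightOneSpectrum.one_lt_absNorm v
      exact_mod_cast (by omega : 0 < Ideal.absNorm v.asIdeal)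
    exact_mod_cast (Real.sqrt_pos.mpr hpos).ne'
  have hq : (Ideal.absNorm v.asIdeal : ℂ)
      = ((Real.sqrt (Ideal.absNorm v.asIdeal : ℝ) : ℝ) : ℂ)
        * ((Real.sqrt (Ideal.absNorm v.asIdeal : ℝ) : ℝ) : ℂ) := by
    rw [← Complex.ofReal_mul, Real.mul_self_sqrt (Nat.cast_nonneg _)]
    simp
  unfold lam255 Rigid.locFactor
  by_cases hn : n ≤ 0
  · have hn' : (0 : ℤ) ≤ -n := by omega
    rw [if_pos hn, if_pos hn', lamPair_fst941 hq hs, zero_sub]
    congr 1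
    have e : ((-n : ℤ) : ℝ) = (((-n).toNat : ℤ) : ℝ) := by
      rw [Int.toNat_of_nonneg hn']
    rw [e, rpow_neg_half941]
  · have hn' : ¬ (0 : ℤ) ≤ -n := by omega
    rw [if_neg hn, if_neg hn']

/-! ## 3. The hypotheses of `WhitFormC` -/

/-- Outside `S` the conductor exponent is `0`. -/
theorem isCondExp_zero_of_unramOutside941 {ψ : AddChar (Adl K) Circle}
    {S : Finset (HeightOneSpectrum (𝓞 K))} (h : Rigid.IsUnramOutside ψ S)
    {v : HeightOneSpectrum (𝓞 K)} (hv : v ∉ S) : IsCondExp ψ v 0 := by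
  obtain ⟨h1, x, hx, hxv, hne⟩ := h v hv
  refine ⟨fun x hx hle => h1 x hx ?_, x, hx, by rw [zero_add]; exact hxv, hne⟩
  rw [mem_adicCompletionIntegers]
  rwa [WithZero.exp_zero] at hle

/-- The additive data of `WhitFormC` are Whittaker data. -/
theorem isWhitData_of941 {m : MeasurableSpace (Adl K)} {ψ : AddChar (Adl K) Circle}
    (hstd : T3.IsStdChar K ψ) (hnd : T3.IsNonDeg K ψ)
    {S : Finset (HeightOneSpectrum (𝓞 K))} (hS : Rigid.IsUnramOutside ψ S)
    {ν : Measure (Adl K)} {D : Set (Adl K)} (hν : ν.IsAddHaarMeasure) (hD : MeasurableSet D)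
    (hF : IsAddFundamentalDomain ((algebraMap K (Adl K)).toAddMonoidHom.range) D ν)
    (hfin : ν D < ⊤) : IsWhitData ψ ν D :=
  ⟨hstd, hnd, ⟨S, hS⟩, hν, hD, hF, hfin⟩

/-! ## 4. The unramified factor -/

attribute [local instance] borelAdl255 borelSpaceAdl255

/-- **The recursion of helper255 with its explicit solution**: for a conductor exponent `d`,
`W_Φ(diag(y,1) g) = lam255 v d a b (log |y|_v) · W_Φ(diag(y₀,1) g)`. -/
theorem wh_lam941 {ψ : AddChar (Adl K) Circle} {ν : Measure (Adl K)} {D : Set (Adl K)}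
    (hW : IsWhitData ψ ν D) {v : HeightOneSpectrum (𝓞 K)} {d : ℤ} (hd : IsCondExp ψ v d)
    {Φ : G K → ℂ} (hc : Continuous Φ) (hb : ∃ C : ℝ, ∀ g : G K, ‖Φ g‖ ≤ C)
    (hl : ∀ (γ : GL (Fin 2) K) (g : G K), Φ (T1.ratG K γ * g) = Φ g)
    (hK : IsKv v Φ) {ae be : ℂ} (hE : IsHeckeEigenAt Φ v ae be)
    {y y₀ : (Adl K)ˣ} (hy : IsIdeleAtFin v y) (hy₀ : IsIdeleAtFin v y₀)
    (hv₀ : Valued.v ((y₀ : Adl K).2 v) = WithZero.exp d) {g : G K} (hg : TrivAtFin v g) :
    wh ψ ν D Φ (tor y * g)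
      = lam255 v d ae be (WithZero.log (Valued.v ((y : Adl K).2 v)))
        * wh ψ ν D Φ (tor y₀ * g) := by
  rw [tor_eq_tv255 v hy, tor_eq_tv255 v hy₀]
  have hy0 := idele_comp_ne_zero255 v y
  have hy₀0 := idele_comp_ne_zero255 v y₀
  have hvy : Valued.v ((y : Adl K).2 v) ≠ 0 := (Valuation.ne_zero_iff _).mpr hy0
  have hexp : Valued.v ((y : Adl K).2 v)
      = WithZero.exp (WithZero.log (Valued.v ((y : Adl K).2 v))) :=
    (WithZero.exp_log hvy).symm
  by_cases hn : WithZero.log (Valued.v ((y : Adl K).2 v)) ≤ d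
  · have hrec := (wv_rec255 hW hc hb hl hK hg hd hE hy₀0 hv₀
      (d - WithZero.log (Valued.v ((y : Adl K).2 v))).toNat _ hy0).1 (by
        conv_lhs => rw [hexp]
        congr 1
        rw [Int.toNat_of_nonneg (by omega)]
        ring)
    rw [hrec]
    simp only [lam255, if_pos hn]
  · have hlt : WithZero.exp d < Valued.v ((y : Adl K).2 v) := by
      rw [hexp, WithZero.exp_lt_exp]
      omega
    rw [wv_vanish255 hW hl hK hg hd hy0 hlt]
    simp only [lam255, if_neg hn, zero_mul]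

/-- **THE UNRAMIFIED LOCAL FACTOR**, in the vocabulary of T2.10. -/
theorem wh_unram941 {ψ : AddChar (Adl K) Circle} {ν : Measure (Adl K)} {D : Set (Adl K)}
    (hW : IsWhitData ψ ν D) {v : HeightOneSpectrum (𝓞 K)} (hd : IsCondExp ψ v 0)
    {Φ : G K → ℂ} (hc : Continuous Φ) (hb : ∃ C : ℝ, ∀ g : G K, ‖Φ g‖ ≤ C)
    (hl : ∀ (γ : GL (Fin 2) K) (g : G K), Φ (T1.ratG K γ * g) = Φ g)
    (hK : IsKv v Φ) {a : ℂ} (hE : IsHeckeEigenAt Φ v a 1)
    {y : (Adl K)ˣ} (hy : IsIdeleAtFin v y) {g : G K} (hg : TrivAtFin v g) :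
    wh ψ ν D Φ (tor y * g) = Rigid.locFactor v a (Rigid.ordI v y) * wh ψ ν D Φ g := by
  have h1 : IsIdeleAtFin v (1 : (Adl K)ˣ) :=
    ⟨fun w => rfl, fun v' _ => rfl⟩
  have hv1 : Valued.v (((1 : (Adl K)ˣ) : Adl K).2 v) = WithZero.exp (0 : ℤ) := by
    rw [WithZero.exp_zero]
    exact map_one _
  have htor1 : tor (1 : (Adl K)ˣ) = 1 := by
    apply Units.ext
    ext i j
    fin_cases i <;> fin_cases j <;> simp [tor]
  have h := wh_lam941 hW hd hc hb hl hK hE hy h1 hv1 hg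
  rw [htor1, one_mul, lam255_eq_locFactor941] at h
  exact h

/-- **THE UNRAMIFIED LOCAL FACTOR**, in the vocabulary of `RigidStrip.lean`. -/
theorem whit_unram941 {ψ : AddChar (Adl K) Circle} {ν : Measure (Adl K)} {D : Set (Adl K)}
    (hW : IsWhitData ψ ν D) {v : HeightOneSpectrum (𝓞 K)} (hd : IsCondExp ψ v 0)
    {Φ : G K → ℂ} (hc : Continuous Φ) (hb : ∃ C : ℝ, ∀ g : G K, ‖Φ g‖ ≤ C)
    (hl : ∀ (γ : GL (Fin 2) K) (g : G K), Φ (T1.ratG K γ * g) = Φ g)
    (hK : IsKv v Φ) {a : ℂ} (hE : IsHeckeEigenAt Φ v a 1)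
    {y : (Adl K)ˣ} (hy : IsIdeleAtFin v y) {g : G K} (hg : TrivAtFin v g) :
    Rigid.whit ψ ν D Φ (Rigid.dgA y * g)
      = Rigid.locFactor v a (Rigid.ordI v y) * Rigid.whit ψ ν D Φ g :=
  wh_unram941 hW hd hc hb hl hK hE hy hg

end Fermat.Agent.LT.T7.H941

end
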