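import Mathlib
import Fermat.Agent.LT.T7.H62.RigidWhit
import Fermat.Agent.LT.T7.H941.WhitLocal
import Fermat.Agent.LT.T2.H23.Idele

/-!
# Row LT, tower T7, node T7.14.6b, LEAF T7.14.6b.2 `HeckeRecC` -- VERBATIM (helper941, spare)

OFF-MAIN.  `heckeRecC941 : Rigid.HeckeRecC K`, unconditional, for every number field `K`.

Proof.  `y = y_v · y'`, `y_v` the local idele of the component of `y` at `v`, `y'` trivial at `v`.
By the solved recursion `whit_unram941` (T2.10.07 of helper255 in the vocabulary of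
`RigidStrip.lean`): `W(a(z y')) = L(ord_v z) · W(a(y'))` for every idele `z` supported at `v`,
`L = Rigid.locFactor v (π.a v)`.  For `z = y_v, y_v t, y_v t⁻¹` the exponents are `n, n + 1,
n - 1`, `n = ord_v y`, and `L(n) = 0` for `n < 0`, `q L(n+1) + L(n-1) = √q a L(n)` for `n ≥ 0`.

Imports (byte-identical copies): `LT/T7/H62/RigidWhit.lean` (helper62@401662996),
`LT/T2/H23/Idele.lean` (helper23), `LT/T2/H255/UnramTorus.lean` (helper255).
-/

set_option autoImplicit false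
set_option linter.unusedSectionVars false
set_option linter.unusedVariables false
set_option linter.style.haveILetI false

open AutomorphicForm IsDedekindDomain NumberField MeasureTheory
open IsDedekindDomain.HeightOneSpectrum
open Fermat.Agent.LT.H556 Fermat.Agent.LT.H556.A0

noncomputable section

namespace Fermat.Agent.LT.T7.H941

open Fermat.Agent.LT Fermat.Agent.LT.T2.H941 Fermat.Agent.LT.T2.H255 Fermat.Agent.LT.T2.H23
open Fermat.Agent.LT.T7

variable {K : Type} [Field K] [NumberField K]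

/-! ## 1. The exponent of an idele -/

theorem val_comp_ne_zero941 (v : HeightOneSpectrum (𝓞 K)) (y : (Adl K)ˣ) :
    Valued.v ((y : Adl K).2 v) ≠ 0 :=
  (Valuation.ne_zero_iff _).mpr (idele_comp_ne_zero255 v y)

theorem ordI_mul941 (v : HeightOneSpectrum (𝓞 K)) (y y' : (Adl K)ˣ) :
    Rigid.ordI v (y * y') = Rigid.ordI v y + Rigid.ordI v y' := by
  unfold Rigid.ordI
  have h : ((y * y' : (Adl K)ˣ) : Adl K).2 v = (y : Adl K).2 v * (y' : Adl K).2 v := rfl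
  rw [h, map_mul, WithZero.log_mul (val_comp_ne_zero941 v y) (val_comp_ne_zero941 v y')]
  ring

theorem ordI_one941 (v : HeightOneSpectrum (𝓞 K)) : Rigid.ordI v (1 : (Adl K)ˣ) = 0 := by
  have h := ordI_mul941 v (1 : (Adl K)ˣ) 1
  rw [mul_one] at h
  omega

theorem ordI_inv941 (v : HeightOneSpectrum (𝓞 K)) (y : (Adl K)ˣ) :
    Rigid.ordI v y⁻¹ = -Rigid.ordI v y := by
  have h := ordI_mul941 v y y⁻¹
  rw [mul_inv_cancel, ordI_one941] at h
  omega

theorem ordI_congr941 (v : HeightOneSpectrum (𝓞 K)) {y y' : (Adl K)ˣ}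
    (h : (y : Adl K).2 v = (y' : Adl K).2 v) : Rigid.ordI v y = Rigid.ordI v y' := by
  unfold Rigid.ordI
  rw [h]

theorem ordI_unif941 {v : HeightOneSpectrum (𝓞 K)} {t : (Adl K)ˣ} (ht : Rigid.IsUnifIdele v t) :
    Rigid.ordI v t = 1 := by
  unfold Rigid.ordI
  rw [ht.2.2, WithZero.log_exp]
  ring

theorem isIdeleAtFin_unif941 {v : HeightOneSpectrum (𝓞 K)} {t : (Adl K)ˣ}
    (ht : Rigid.IsUnifIdele v t) : IsIdeleAtFin v t :=
  ⟨ht.1, ht.2.1⟩

theorem isIdeleAtFin_mul941 {v : HeightOneSpectrum (𝓞 K)} {y y' : (Adl K)ˣ}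
    (hy : IsIdeleAtFin v y) (hy' : IsIdeleAtFin v y') : IsIdeleAtFin v (y * y') := by
  refine ⟨fun w => ?_, fun v' hv' => ?_⟩
  · have h : ((y * y' : (Adl K)ˣ) : Adl K).1 w = (y : Adl K).1 w * (y' : Adl K).1 w := rfl
    rw [h, hy.1 w, hy'.1 w, mul_one]
  · have h : ((y * y' : (Adl K)ˣ) : Adl K).2 v' = (y : Adl K).2 v' * (y' : Adl K).2 v' := rfl
    rw [h, hy.2 v' hv', hy'.2 v' hv', mul_one]

theorem isIdeleAtFin_inv941 {v : HeightOneSpectrum (𝓞 K)} {y : (Adl K)ˣ}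
    (hy : IsIdeleAtFin v y) : IsIdeleAtFin v y⁻¹ := by
  have e : y = iF23 v (cF23 v y) := eq_iF23_of_isIdeleAtFin23 hy
  rw [e, ← map_inv]
  exact isIdeleAtFin_iF23 v _

/-! ## 2. The local factor -/

theorem locFactor_neg941 (v : HeightOneSpectrum (𝓞 K)) (a : ℂ) {n : ℤ} (hn : n < 0) :
    Rigid.locFactor v a n = 0 := by
  unfold Rigid.locFactor
  rw [if_neg (by omega)]

theorem locFactor_nat941 (v : HeightOneSpectrum (𝓞 K)) (a : ℂ) (m : ℕ) :
    Rigid.locFactor v a (m : ℤ)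
      = (((Real.sqrt (Ideal.absNorm v.asIdeal : ℝ) : ℝ) : ℂ)⁻¹) ^ m * Rigid.hpoly a m := by
  unfold Rigid.locFactor
  rw [if_pos (by omega), rpow_neg_half941, Int.toNat_natCast]

/-- `q L(n+1) + L(n-1) = √q a L(n)` for `n ≥ 0`. -/
theorem locFactor_rec941 (v : HeightOneSpectrum (𝓞 K)) (a : ℂ) {n : ℤ} (hn : 0 ≤ n) :
    ((Rigid.nv v : ℝ) : ℂ) * Rigid.locFactor v a (n + 1) + Rigid.locFactor v a (n - 1)
      = ((Real.sqrt (Rigid.nv v) : ℝ) : ℂ) * a * Rigid.locFactor v a n := by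
  have hpos : (0 : ℝ) < (Ideal.absNorm v.asIdeal : ℝ) := by
    have h := NumberField.HeightOneSpectrum.one_lt_absNorm v
    exact_mod_cast (by omega : 0 < Ideal.absNorm v.asIdeal)
  have hs : ((Real.sqrt (Ideal.absNorm v.asIdeal : ℝ) : ℝ) : ℂ) ≠ 0 := by
    exact_mod_cast (Real.sqrt_pos.mpr hpos).ne'
  have hq : ((Rigid.nv v : ℝ) : ℂ)
      = ((Real.sqrt (Ideal.absNorm v.asIdeal : ℝ) : ℝ) : ℂ)
        * ((Real.sqrt (Ideal.absNorm v.asIdeal : ℝ) : ℝ) : ℂ) := by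
    rw [← Complex.ofReal_mul, Real.mul_self_sqrt (Nat.cast_nonneg _)]
    rfl
  have hsq : ((Real.sqrt (Rigid.nv v) : ℝ) : ℂ)
      = ((Real.sqrt (Ideal.absNorm v.asIdeal : ℝ) : ℝ) : ℂ) := rfl
  rw [hq, hsq]
  obtain ⟨m, rfl⟩ := Int.eq_ofNat_of_zero_le hn
  cases m with
  | zero =>
    have e1 : ((0 : ℕ) : ℤ) + 1 = ((1 : ℕ) : ℤ) := by norm_num
    have e2 : ((0 : ℕ) : ℤ) - 1 < 0 := by norm_num
    rw [e1, locFactor_neg941 v a e2, locFactor_nat941, locFactor_nat941]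
    simp only [Rigid.hpoly, pow_one, pow_zero, mul_one, add_zero]
    generalize ((Real.sqrt (Ideal.absNorm v.asIdeal : ℝ) : ℝ) : ℂ) = s at hs ⊢
    have hst : s * s⁻¹ = 1 := mul_inv_cancel₀ hs
    linear_combination (s * a) * hst
  | succ k =>
    have e1 : ((k + 1 : ℕ) : ℤ) + 1 = ((k + 2 : ℕ) : ℤ) := by push_cast; ring
    have e2 : ((k + 1 : ℕ) : ℤ) - 1 = ((k : ℕ) : ℤ) := by push_cast; ring
    rw [e1, e2, locFactor_nat941, locFactor_nat941, locFactor_nat941]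
    have h2 : Rigid.hpoly a (k + 2) = a * Rigid.hpoly a (k + 1) - Rigid.hpoly a k := rfl
    rw [h2]
    generalize Rigid.hpoly a (k + 1) = H1
    generalize Rigid.hpoly a k = H0
    generalize ((Real.sqrt (Ideal.absNorm v.asIdeal : ℝ) : ℝ) : ℂ) = s at hs ⊢
    have hst : s * s⁻¹ = 1 := mul_inv_cancel₀ hs
    linear_combination
      ((s * s⁻¹ + 1) * s⁻¹ ^ k * (a * H1 - H0) - s⁻¹ ^ k * a * H1) * hst

/-! ## 3. The leaf -/

/-- **LEAF T7.14.6b.2 `HeckeRecC`**, verbatim, unconditional. -/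
theorem heckeRecC941 : Rigid.HeckeRecC K := by
  intro hcplx ψ hstd hnd ν D hνH hDm hDf hDfin π S φ hun hφ v hv y t ht
  have hW : IsWhitData ψ ν D := isWhitData_of941 hstd hnd hun hνH hDm hDf hDfin
  have hd : IsCondExp ψ v 0 := isCondExp_zero_of_unramOutside941 hun hv
  obtain ⟨𝔪, h𝔪, hsupp, hlev⟩ := hφ.level_inv
  have hK : IsKv v φ :=
    T2.H333.isKv_of_isLevel333 𝔪 v φ (fun h => hv (hsupp v h)) hlev
  have hE : IsHeckeEigenAt φ v (π.a v) 1 := hφ.hecke v hv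
  -- the decomposition `y = y_v · y'`
  have hyv : IsIdeleAtFin v (iF23 v (cF23 v y)) := isIdeleAtFin_iF23 v _
  have hy' : TrivAtFin v (Rigid.dgA (y * (iF23 v (cF23 v y))⁻¹)) := by
    apply trivAtFin_tor23
    rw [map_mul, map_inv, cF23_iF23_same23, mul_inv_cancel]
  have key : ∀ z : (Adl K)ˣ, IsIdeleAtFin v z →
      Rigid.whit ψ ν D φ (Rigid.dgA (z * (y * (iF23 v (cF23 v y))⁻¹)))
        = Rigid.locFactor v (π.a v) (Rigid.ordI v z)
          * Rigid.whit ψ ν D φ (Rigid.dgA (y * (iF23 v (cF23 v y))⁻¹)) := by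
    intro z hz
    have e : Rigid.dgA (z * (y * (iF23 v (cF23 v y))⁻¹))
        = Rigid.dgA z * Rigid.dgA (y * (iF23 v (cF23 v y))⁻¹) := tor_mul23 _ _
    rw [e]
    exact whit_unram941 hW hd hφ.cont hφ.bdd hφ.left_inv hK hE hz hy'
  have hord : Rigid.ordI v (iF23 v (cF23 v y)) = Rigid.ordI v y :=
    ordI_congr941 v (iF23_val_same23 v _)
  have htF : IsIdeleAtFin v t := isIdeleAtFin_unif941 ht
  have e0 : y = iF23 v (cF23 v y) * (y * (iF23 v (cF23 v y))⁻¹) := by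
    rw [mul_comm y, ← mul_assoc, mul_inv_cancel, one_mul]
  have e1 : y * t = (iF23 v (cF23 v y) * t) * (y * (iF23 v (cF23 v y))⁻¹) := by
    rw [mul_comm (iF23 v (cF23 v y)) t, mul_assoc, ← e0, mul_comm]
  have e2 : y * t⁻¹ = (iF23 v (cF23 v y) * t⁻¹) * (y * (iF23 v (cF23 v y))⁻¹) := by
    rw [mul_comm (iF23 v (cF23 v y)) t⁻¹, mul_assoc, ← e0, mul_comm]
  have k0 := key _ hyv
  have k1 := key _ (isIdeleAtFin_mul941 hyv htF)
  have k2 := key _ (isIdeleAtFin_mul941 hyv (isIdeleAtFin_inv941 htF))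
  rw [← e0, hord] at k0
  rw [← e1, ordI_mul941, hord, ordI_unif941 ht] at k1
  rw [← e2, ordI_mul941, hord, ordI_inv941, ordI_unif941 ht] at k2
  refine ⟨fun hn => ?_, fun hn => ?_⟩
  · rw [k0, locFactor_neg941 v _ hn, zero_mul]
  · rw [k0, k1, k2]
    have hrec := locFactor_rec941 v (π.a v) hn
    have e3 : Rigid.ordI v y + -1 = Rigid.ordI v y - 1 := by ring
    rw [e3]
    linear_combination
      (Rigid.whit ψ ν D φ (Rigid.dgA (y * (iF23 v (cF23 v y))⁻¹))) * hrec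

end Fermat.Agent.LT.T7.H941

end
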