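import Mathlib
import Fermat.Agent.LT.T2.H23.Level
import Fermat.Agent.LT.T2.H23.Chain
import Fermat.Agent.LT.T2.H557.CutLevel
import Fermat.Agent.LT.T7.H62.RigidWhit

/-!
# Row LT, tower T7, node T7.14.6b.1 `LocC` (helper941, spare) -- part 1: levels and cells

OFF-MAIN.  Ideal-theoretic bookkeeping for the localisation at `S`:

* `idealClosure_mul_pow941`: `(𝔪 v'^k) 𝒪_v = 𝔪 𝒪_v` for `v ≠ v'`;
* `scale_ideal941`, `isLevel_rt_tor941`: the level of a right translate by a torus element, with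
  an IDEAL `𝔞` (prime factors under control) instead of a principal ideal;
* `exists_scale_ideal941`: `𝔞 = (∏_{v ∈ S} v)^k` works for an idele supported in `S`;
* `inOrbit_congr941`, `inCell_of_orbit941`, `orbit_of_inCell941`: the cells of `RigidStrip.lean`
  and the orbits of `SmoSpec.lean`.
-/

set_option autoImplicit false
set_option linter.unusedSectionVars false
set_option linter.unusedVariables false
set_option linter.style.haveILetI false

open IsDedekindDomain NumberField IsDedekindDomain.HeightOneSpectrum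
open Fermat.Agent.LT.H556 Fermat.Agent.LT.H556.A0

noncomputable section

namespace Fermat.Agent.LT.T7.H941

open Fermat.Agent.LT Fermat.Agent.LT.T2.H941 Fermat.Agent.LT.T2.H23 Fermat.Agent.LT.T2
open Fermat.Agent.LT.T7

variable {K : Type} [Field K] [NumberField K]

/-! ## 1. The closure of an ideal -/

theorem add_mem_idealClosure941 {𝔫 : Ideal (𝓞 K)} {v : HeightOneSpectrum (𝓞 K)}
    {x y : v.adicCompletion K} (hx : x ∈ idealClosure 𝔫 v) (hy : y ∈ idealClosure 𝔫 v) :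
    x + y ∈ idealClosure 𝔫 v := by
  let f : 𝓞 K →+ v.adicCompletion K :=
    ((algebraMap K (v.adicCompletion K)).comp (algebraMap (𝓞 K) K)).toAddMonoidHom
  let H : AddSubgroup (v.adicCompletion K) := AddSubgroup.map f 𝔫.toAddSubgroup
  have e : idealClosure 𝔫 v = (H.topologicalClosure : Set (v.adicCompletion K)) := by
    rw [AddSubgroup.topologicalClosure_coe]
    rfl
  rw [e] at hx hy ⊢
  exact H.topologicalClosure.add_mem hx hy

/-- `(𝔪 a^k) 𝒪_v = 𝔪 𝒪_v` for `v ≠ a`. -/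
theorem idealClosure_mul_pow941 (𝔪 : Ideal (𝓞 K)) {a v : HeightOneSpectrum (𝓞 K)} (h : v ≠ a)
    (k : ℕ) : idealClosure (𝔪 * a.asIdeal ^ k) v = idealClosure 𝔪 v := by
  apply Set.Subset.antisymm
  · exact idealClosure_mono23 Ideal.mul_le_left v
  · obtain ⟨p, hpa, hpv⟩ := exists_notMem23 (v := a) (v₀ := v) (Ne.symm h)
    have hpk : p ^ k ∉ v.asIdeal := fun hmem => hpv (v.isPrime.mem_of_pow_mem k hmem)
    have htv : Valued.v (((algebraMap (𝓞 K) K (p ^ k) : K) : v.adicCompletion K)) = 1 := by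
      rw [val_int23]
      exact (intValuation_eq_one_iff).mpr hpk
    have ht0 : (((algebraMap (𝓞 K) K (p ^ k) : K) : v.adicCompletion K)) ≠ 0 := by
      intro h0
      rw [h0, map_zero] at htv
      exact zero_ne_one htv
    refine closure_minimal ?_ isClosed_closure
    rintro _ ⟨n, hn, rfl⟩
    have hnt : p ^ k * n ∈ 𝔪 * a.asIdeal ^ k := by
      have h1 : n * p ^ k ∈ 𝔪 * a.asIdeal ^ k :=
        Ideal.mul_mem_mul hn (Ideal.pow_mem_pow hpa k)
      rwa [mul_comm n (p ^ k)] at h1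
    have hc : Valued.v ((((algebraMap (𝓞 K) K (p ^ k) : K) : v.adicCompletion K))⁻¹) ≤ 1 := by
      rw [map_inv₀, htv, inv_one]
    have hmem := mul_mem_idealClosure23 (v := v) hc hnt
    have e : ((((algebraMap (𝓞 K) K (p ^ k) : K) : v.adicCompletion K))⁻¹)
        * ((algebraMap (𝓞 K) K (p ^ k * n) : K) : v.adicCompletion K)
        = algebraMap K (v.adicCompletion K) (algebraMap (𝓞 K) K n) := by
      have e1 : ((algebraMap (𝓞 K) K (p ^ k * n) : K) : v.adicCompletion K)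
          = ((algebraMap (𝓞 K) K (p ^ k) : K) : v.adicCompletion K)
            * algebraMap K (v.adicCompletion K) (algebraMap (𝓞 K) K n) := by
        show algebraMap K (v.adicCompletion K) (algebraMap (𝓞 K) K (p ^ k * n))
          = algebraMap K (v.adicCompletion K) (algebraMap (𝓞 K) K (p ^ k))
            * algebraMap K (v.adicCompletion K) (algebraMap (𝓞 K) K n)
        rw [map_mul, map_mul]
      rw [e1, ← mul_assoc, inv_mul_cancel₀ ht0, one_mul]
    rw [e] at hmem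
    exact hmem

/-- The ideal version of `scale_mem_idealClosure23`. -/
theorem scale_ideal941 {𝔞 𝔫 : Ideal (𝓞 K)} {v : HeightOneSpectrum (𝓞 K)}
    {τ : v.adicCompletion K}
    (hτ : ∀ a ∈ 𝔞, Valued.v (τ * ((algebraMap (𝓞 K) K a : K) : v.adicCompletion K)) ≤ 1)
    {x : v.adicCompletion K} (hx : x ∈ idealClosure (𝔞 * 𝔫) v) :
    τ * x ∈ idealClosure 𝔫 v := by
  have hcl : IsClosed {x : v.adicCompletion K | τ * x ∈ idealClosure 𝔫 v} :=
    (isClosed_closure (s := _)).preimage (continuous_const_mul τ)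
  refine closure_minimal ?_ hcl hx
  rintro _ ⟨m, hm, rfl⟩
  show τ * algebraMap K (v.adicCompletion K) (algebraMap (𝓞 K) K m) ∈ idealClosure 𝔫 v
  refine Submodule.mul_induction_on hm ?_ ?_
  · intro a ha n hn
    have e : τ * algebraMap K (v.adicCompletion K) (algebraMap (𝓞 K) K (a * n))
        = (τ * ((algebraMap (𝓞 K) K a : K) : v.adicCompletion K))
          * ((algebraMap (𝓞 K) K n : K) : v.adicCompletion K) := by
      show τ * algebraMap K (v.adicCompletion K) (algebraMap (𝓞 K) K (a * n))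
        = (τ * algebraMap K (v.adicCompletion K) (algebraMap (𝓞 K) K a))
          * algebraMap K (v.adicCompletion K) (algebraMap (𝓞 K) K n)
      rw [map_mul, map_mul]
      ring
    rw [e]
    exact mul_mem_idealClosure23 (hτ a ha) hn
  · intro x y hx hy
    have e : τ * algebraMap K (v.adicCompletion K) (algebraMap (𝓞 K) K (x + y))
        = τ * algebraMap K (v.adicCompletion K) (algebraMap (𝓞 K) K x)
          + τ * algebraMap K (v.adicCompletion K) (algebraMap (𝓞 K) K y) := by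
      rw [map_add, map_add]
      ring
    rw [e]
    exact add_mem_idealClosure941 hx hy

/-! ## 2. The level of a right translate by a torus element -/

theorem conj_entries941 {𝔞 𝔫 : Ideal (𝓞 K)} (τ : (Adl K)ˣ)
    (h1 : ∀ v : HeightOneSpectrum (𝓞 K), ∀ a ∈ 𝔞,
      Valued.v ((τ : Adl K).2 v * ((algebraMap (𝓞 K) K a : K) : v.adicCompletion K)) ≤ 1)
    (h2 : ∀ v : HeightOneSpectrum (𝓞 K), ∀ a ∈ 𝔞,
      Valued.v (((τ⁻¹ : (Adl K)ˣ) : Adl K).2 v
        * ((algebraMap (𝓞 K) K a : K) : v.adicCompletion K)) ≤ 1)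
    (u : G K) (v : HeightOneSpectrum (𝓞 K))
    (hu : ∀ i j : Fin 2, (finComp v u - 1) i j ∈ idealClosure (𝔞 * 𝔫) v)
    (i j : Fin 2) :
    (finComp v ((tor τ)⁻¹ * u * tor τ) - 1) i j ∈ idealClosure 𝔫 v := by
  have hle : 𝔞 * 𝔫 ≤ 𝔫 := Ideal.mul_le_right
  have hba : ((τ⁻¹ : (Adl K)ˣ) : Adl K).2 v * (τ : Adl K).2 v = 1 := by
    rw [← A2.H743.snd_mul743, Units.inv_mul, A2.H743.snd_one743]
  rw [H333.finComp_mul333, H333.finComp_mul333, ← tor_inv23, finComp_tor23, finComp_tor23]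
  set U := finComp v u with hU
  set a := (τ : Adl K).2 v with ha
  set b := ((τ⁻¹ : (Adl K)ˣ) : Adl K).2 v with hb
  have m00 := idealClosure_mono23 hle v (hu 0 0)
  have m01 := scale_ideal941 (h2 v) (hu 0 1)
  have m10 := scale_ideal941 (h1 v) (hu 1 0)
  have m11 := idealClosure_mono23 hle v (hu 1 1)
  rw [conj_diag23 a b hba U]
  fin_cases i <;> fin_cases j
  · exact m00
  · exact m01
  · exact m10
  · exact m11

theorem isLevel_rt_tor941 {𝔞 𝔫 : Ideal (𝓞 K)} (τ : (Adl K)ˣ)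
    (hI : ∀ w : InfinitePlace K, cI23 w τ = 1)
    (h1 : ∀ v : HeightOneSpectrum (𝓞 K), ∀ a ∈ 𝔞,
      Valued.v ((τ : Adl K).2 v * ((algebraMap (𝓞 K) K a : K) : v.adicCompletion K)) ≤ 1)
    (h2 : ∀ v : HeightOneSpectrum (𝓞 K), ∀ a ∈ 𝔞,
      Valued.v (((τ⁻¹ : (Adl K)ˣ) : Adl K).2 v
        * ((algebraMap (𝓞 K) K a : K) : v.adicCompletion K)) ≤ 1)
    {f : G K → ℂ} (hf : IsLevel 𝔫 f) : IsLevel (𝔞 * 𝔫) (rt (tor τ) f) := by
  intro u hu g
  show f (g * u * tor τ) = f (g * tor τ)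
  have e : g * u * tor τ = g * tor τ * ((tor τ)⁻¹ * u * tor τ) := by group
  rw [e]
  apply hf
  refine ⟨fun w => ?_, fun v i j => ⟨?_, ?_⟩⟩
  · exact trivAtInf_mul23 (trivAtInf_mul23 (trivAtInf_inv23 (trivAtInf_tor23 (hI w))) (hu.1 w))
      (trivAtInf_tor23 (hI w))
  · exact conj_entries941 τ h1 h2 u v (fun i j => (hu.2 v i j).1) i j
  · have e2 : ((tor τ)⁻¹ * u * tor τ)⁻¹ = (tor τ)⁻¹ * u⁻¹ * tor τ := by group
    rw [e2]
    exact conj_entries941 τ h1 h2 u⁻¹ v (fun i j => (hu.2 v i j).2) i j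

/-- For an idele supported in `S` the ideal `(∏_{v ∈ S} v)^k` scales `τ` and `τ⁻¹` into the
integers, for a suitable `k`. -/
theorem exists_scale_ideal941 (S : Finset (HeightOneSpectrum (𝓞 K))) (τ : (Adl K)ˣ)
    (hτ : ∀ v : HeightOneSpectrum (𝓞 K), v ∉ S → cF23 v τ = 1) :
    ∃ k : ℕ,
      (∀ v : HeightOneSpectrum (𝓞 K), ∀ a ∈ (∏ v ∈ S, v.asIdeal) ^ k,
        Valued.v ((τ : Adl K).2 v * ((algebraMap (𝓞 K) K a : K) : v.adicCompletion K)) ≤ 1) ∧
      ∀ v : HeightOneSpectrum (𝓞 K), ∀ a ∈ (∏ v ∈ S, v.asIdeal) ^ k,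
        Valued.v (((τ⁻¹ : (Adl K)ˣ) : Adl K).2 v
          * ((algebraMap (𝓞 K) K a : K) : v.adicCompletion K)) ≤ 1 := by
  classical
  set k : ℕ := ∑ v ∈ S, (WithZero.log (Valued.v ((τ : Adl K).2 v))).natAbs with hk
  have hle : ∀ v ∈ S, (∏ v ∈ S, v.asIdeal) ^ k ≤ v.asIdeal ^ k := fun v hv =>
    Ideal.pow_right_mono (Ideal.le_of_dvd (Finset.dvd_prod_of_mem _ hv)) k
  have hNv : ∀ v ∈ S, ∀ a ∈ (∏ v ∈ S, v.asIdeal) ^ k,
      Valued.v (((algebraMap (𝓞 K) K a : K) : v.adicCompletion K))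
        ≤ WithZero.exp (-(k : ℤ)) := by
    intro v hv a ha
    rw [val_int23, intValuation_le_pow_iff_mem]
    exact hle v hv ha
  have hN1 : ∀ (v : HeightOneSpectrum (𝓞 K)) (a : 𝓞 K),
      Valued.v (((algebraMap (𝓞 K) K a : K) : v.adicCompletion K)) ≤ 1 := by
    intro v a
    rw [val_int23]
    exact intValuation_le_one v _
  have hkv : ∀ v ∈ S, (WithZero.log (Valued.v ((τ : Adl K).2 v))).natAbs ≤ k := fun v hv =>
    Finset.single_le_sum (f := fun v => (WithZero.log (Valued.v ((τ : Adl K).2 v))).natAbs)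
      (fun _ _ => Nat.zero_le _) hv
  have hτ0 : ∀ v : HeightOneSpectrum (𝓞 K), Valued.v ((τ : Adl K).2 v) ≠ 0 := fun v =>
    (Valuation.ne_zero_iff _).2 (A2.H743.idele_snd_ne_zero743 τ v)
  have hb1 : ∀ v ∈ S, Valued.v ((τ : Adl K).2 v) ≤ WithZero.exp (k : ℤ) := by
    intro v hv
    rw [← WithZero.exp_log (hτ0 v), WithZero.exp_le_exp]
    have := hkv v hv
    omega
  have hb2 : ∀ v ∈ S, Valued.v (((τ⁻¹ : (Adl K)ˣ) : Adl K).2 v) ≤ WithZero.exp (k : ℤ) := by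
    intro v hv
    have e := val_cF23_mul_inv23 v τ
    have e2 : Valued.v (((τ⁻¹ : (Adl K)ˣ) : Adl K).2 v) = (Valued.v ((τ : Adl K).2 v))⁻¹ :=
      eq_inv_of_mul_eq_one_right e
    rw [e2, ← WithZero.exp_log (hτ0 v), ← WithZero.exp_neg, WithZero.exp_le_exp]
    have := hkv v hv
    omega
  have hfin : ∀ (x : ∀ v : HeightOneSpectrum (𝓞 K), v.adicCompletion K),
      (∀ v ∈ S, Valued.v (x v) ≤ WithZero.exp (k : ℤ)) → (∀ v ∉ S, x v = 1) →
      ∀ v : HeightOneSpectrum (𝓞 K), ∀ a ∈ (∏ v ∈ S, v.asIdeal) ^ k,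
        Valued.v (x v * ((algebraMap (𝓞 K) K a : K) : v.adicCompletion K)) ≤ 1 := by
    intro x hx1 hx2 v a ha
    by_cases hv : v ∈ S
    · rw [map_mul]
      calc Valued.v (x v) * Valued.v (((algebraMap (𝓞 K) K a : K) : v.adicCompletion K))
          ≤ WithZero.exp (k : ℤ) * WithZero.exp (-(k : ℤ)) :=
            mul_le_mul' (hx1 v hv) (hNv v hv a ha)
        _ = 1 := by rw [← WithZero.exp_add, add_neg_cancel, WithZero.exp_zero]
    · rw [hx2 v hv, one_mul]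
      exact hN1 v a
  refine ⟨k, ?_, ?_⟩
  · exact hfin (fun v => (τ : Adl K).2 v) hb1 (fun v hv => (cF23_eq_one_iff23 v τ).mp (hτ v hv))
  · refine hfin (fun v => ((τ⁻¹ : (Adl K)ˣ) : Adl K).2 v) hb2 (fun v hv => ?_)
    have := hτ v hv
    rw [← cF23_eq_one_iff23, map_inv, this, inv_one]

/-! ## 3. Orbits and cells -/

/-- `InOrbit` depends on the components at `v` and on the closure of the ideal at `v` only. -/
theorem inOrbit_congr941 {𝔪 𝔪' : Ideal (𝓞 K)} {v : HeightOneSpectrum (𝓞 K)}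
    {y y' y₀ y₀' : (Adl K)ˣ} (hy : cF23 v y = cF23 v y') (hy₀ : cF23 v y₀ = cF23 v y₀')
    (hc : idealClosure 𝔪 v = idealClosure 𝔪' v) :
    InOrbit 𝔪 v y y₀ ↔ InOrbit 𝔪' v y' y₀' := by
  unfold InOrbit
  have e1 : ((y * y₀⁻¹ : (Adl K)ˣ) : Adl K).2 v = ((y' * y₀'⁻¹ : (Adl K)ˣ) : Adl K).2 v := by
    rw [← cF23_val23, ← cF23_val23, map_mul, map_mul, map_inv, map_inv, hy, hy₀]
  have e2 : ((y₀ * y⁻¹ : (Adl K)ˣ) : Adl K).2 v = ((y₀' * y'⁻¹ : (Adl K)ˣ) : Adl K).2 v := by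
    rw [← cF23_val23, ← cF23_val23, map_mul, map_mul, map_inv, map_inv, hy, hy₀]
  rw [e1, e2, hc]

theorem comp_mul_inv941 (v : HeightOneSpectrum (𝓞 K)) (y y₀ : (Adl K)ˣ) :
    ((y * y₀⁻¹ : (Adl K)ˣ) : Adl K).2 v * (y₀ : Adl K).2 v = (y : Adl K).2 v := by
  rw [← cF23_val23, ← cF23_val23, ← cF23_val23, ← Units.val_mul, ← map_mul, inv_mul_cancel_right]

/-- An orbit lies in the cell. -/
theorem inCell_of_orbit941 {S : Finset (HeightOneSpectrum (𝓞 K))} {𝔠 : Ideal (𝓞 K)}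
    {y₀ y : (Adl K)ˣ} (h : ∀ v ∈ S, InOrbit 𝔠 v y y₀) : Rigid.InCell S 𝔠 y₀ y := by
  intro v hv
  refine ⟨_, (h v hv).1, ?_⟩
  have e := comp_mul_inv941 v y y₀
  rw [mul_add, mul_one, mul_sub, mul_one, mul_comm, e]
  ring

/-- The cell lies in the orbit, at the places dividing the ideal. -/
theorem orbit_of_inCell941 {S : Finset (HeightOneSpectrum (𝓞 K))} {𝔠 : Ideal (𝓞 K)}
    (h𝔠 : 𝔠 ≠ ⊥) (hS : ∀ v ∈ S, v.asIdeal ∣ 𝔠)
    {y₀ y : (Adl K)ˣ} (h : Rigid.InCell S 𝔠 y₀ y) : ∀ v ∈ S, InOrbit 𝔠 v y y₀ := by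
  intro v hv
  obtain ⟨u, hu, hyu⟩ := h v hv
  obtain ⟨e, hC, -, he1, -⟩ := T2.H557.idealClosure_ball557 𝔠 h𝔠 v
  have he : 1 ≤ e := he1 (hS v hv)
  have hu' : Valued.v u ≤ WithZero.exp (-(e : ℤ)) := (hC u).1 hu
  have hult : Valued.v u < 1 := by
    refine lt_of_le_of_lt hu' ?_
    rw [← WithZero.exp_zero, WithZero.exp_lt_exp]
    omega
  have h1u : Valued.v (1 + u) = 1 := by
    have := Valuation.map_one_add_of_lt (v := (Valued.v : Valuation (v.adicCompletion K) _)) hult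
    exact this
  have h1u0 : (1 : v.adicCompletion K) + u ≠ 0 := by
    intro h0
    rw [h0, map_zero] at h1u
    exact zero_ne_one h1u
  have hy₀0 : (y₀ : Adl K).2 v ≠ 0 := A2.H743.idele_snd_ne_zero743 y₀ v
  have hy0 : (y : Adl K).2 v ≠ 0 := A2.H743.idele_snd_ne_zero743 y v
  have q1 : ((y * y₀⁻¹ : (Adl K)ˣ) : Adl K).2 v = 1 + u := by
    have e1 := comp_mul_inv941 v y y₀
    rw [hyu, mul_comm ((y₀ : Adl K).2 v)] at e1
    exact mul_right_cancel₀ hy₀0 e1
  have q2 : ((y₀ * y⁻¹ : (Adl K)ˣ) : Adl K).2 v = (1 + u)⁻¹ := by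
    have e1 := comp_mul_inv941 v y₀ y
    rw [hyu] at e1
    have e2 : ((y₀ * y⁻¹ : (Adl K)ˣ) : Adl K).2 v * (1 + u) = 1 := by
      have e3 : ((y₀ * y⁻¹ : (Adl K)ˣ) : Adl K).2 v * (1 + u) * (y₀ : Adl K).2 v
          = 1 * (y₀ : Adl K).2 v := by
        linear_combination e1
      exact mul_right_cancel₀ hy₀0 e3
    exact eq_inv_of_mul_eq_one_left e2
  refine ⟨?_, ?_⟩
  · rw [q1, add_sub_cancel_left]
    exact hu
  · rw [q2, hC]
    have e4 : (1 + u)⁻¹ - 1 = -u * (1 + u)⁻¹ := by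
      field_simp
      ring
    rw [e4, map_mul, Valuation.map_neg, map_inv₀, h1u, inv_one, mul_one]
    exact hu'

end Fermat.Agent.LT.T7.H941

end
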