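import Mathlib
import Fermat.Agent.LT.T7.H941.LocLevel
import Fermat.Agent.LT.T2.H557.Cutoff
import Fermat.Agent.LT.T2.H729.CondExistsLeaf

/-!
# Row LT, tower T7, node T7.14.6b.1 `LocC` (helper941, spare) -- part 2: the chain of cut-offs

OFF-MAIN.

* `cutProp941`: the Kirillov cut-off of helper557 (`cutoffC557`, T2.10.10) with the EXPLICIT level
  `𝔪' = 𝔪 a^k` (same proof; the statement `CutoffC` hides the level).
* `chain941`: the chain of helper23 (`step23`) over a finite set `L` with the explicit cell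
  `{Y : Y ∈ y₀ (1 + 𝔪₀ 𝒪_v), v ∈ L}`: as the level changes at the place of the cut only, the
  closure of the level at the places still to be cut is the closure of `𝔪₀`.
-/

set_option autoImplicit false
set_option linter.unusedSectionVars false
set_option linter.unusedVariables false
set_option linter.style.haveILetI false

open IsDedekindDomain NumberField IsDedekindDomain.HeightOneSpectrum MeasureTheory
open Fermat.Agent.LT.H556 Fermat.Agent.LT.H556.A0

noncomputable section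

namespace Fermat.Agent.LT.T7.H941

open Fermat.Agent.LT Fermat.Agent.LT.T2.H941 Fermat.Agent.LT.T2.H23 Fermat.Agent.LT.T2
open Fermat.Agent.LT.T2.H333 Fermat.Agent.LT.T3.H237 Fermat.Agent.LT.T2.H557
open Fermat.Agent.LT.T7

variable {K : Type} [Field K] [NumberField K]

/-! ## 1. The cut-off with its level -/

/-- **The Kirillov cut-off at a finite place with the explicit level `𝔪 a^k`** (helper557). -/
theorem cutProp941 :
    letI : MeasurableSpace (Adl K) := borel (Adl K)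
    ∀ (ψ : AddChar (Adl K) Circle) (ν : Measure (Adl K)) (D : Set (Adl K)), IsWhitData ψ ν D →
    ∀ (v : HeightOneSpectrum (𝓞 K)) (𝔪 : Ideal (𝓞 K)), 𝔪 ≠ ⊥ →
      ∀ s : (v.adicCompletion K)ˣ, ∃ (n : ℕ) (c : Fin n → ℂ) (p : Fin n → G K) (k : ℕ),
        CutProp23 (wh ψ ν D) v 𝔪 (iF23 v s) n c p (𝔪 * v.asIdeal ^ k) := by
  letI : MeasurableSpace (Adl K) := borel (Adl K)
  haveI : BorelSpace (Adl K) := ⟨rfl⟩
  intro ψ ν D hdata v 𝔪 h𝔪 s
  obtain ⟨d, hcond⟩ := T2.H729.condExistsC729 (K := K) ψ hdata.1 hdata.2.1 v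
  obtain ⟨y₀, hy₀d⟩ : ∃ y₀ : (Adl K)ˣ, y₀ = iF23 v s := ⟨_, rfl⟩
  have hy₀ : IsIdeleAtFin v y₀ := by rw [hy₀d]; exact isIdeleAtFin_iF23 v s
  rw [← hy₀d]
  obtain ⟨e, hC, he0, -, hCL⟩ := idealClosure_ball557 𝔪 h𝔪 v
  obtain ⟨hχ1, hχ2⟩ := locChar557_cond hcond
  have hz0 : evF333 v (y₀ : Adl K) ≠ 0 := evF333_unit_ne_zero557 v y₀
  have hψc : Continuous ψ := hdata.1.cont
  have hDfin : ν D < ⊤ := hdata.2.2.2.2.2.2
  by_cases hR : Valued.v (evF333 v (y₀ : Adl K)) ≤ WithZero.exp (d + e)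
  · -- the main case
    obtain ⟨n, c, u, hu, hsum⟩ :=
      cutoff_local557 v (locChar557 ψ v) d hχ1 hχ2 e (evF333 v (y₀ : Adl K)) hz0 hR
    have huL : ∀ i, Valued.v (u i) ≤ WithZero.exp
        (((d + max (e : ℤ) 1 - WithZero.log (Valued.v (evF333 v (y₀ : Adl K)))).toNat : ℕ) : ℤ) :=
      fun i => le_trans (hu i) (WithZero.exp_le_exp.mpr (Int.self_le_toNat _))
    refine ⟨n, c, fun i => T3.unip K (loc557 v (u i)),
      2 * (d + max (e : ℤ) 1
        - WithZero.log (Valued.v (evF333 v (y₀ : Adl K)))).toNat, ?_, Ideal.mul_le_left, ?_, ?_, ?_⟩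
    · rw [← Ideal.zero_eq_bot]
      exact mul_ne_zero h𝔪 (pow_ne_zero _ v.ne_bot)
    · intro v' hv' hdvd
      rcases v'.prime.dvd_or_dvd hdvd with h | h
      · exact h
      · exfalso
        have h1 : v'.asIdeal ∣ v.asIdeal := v'.prime.dvd_of_dvd_pow h
        have hle : v.asIdeal ≤ v'.asIdeal := Ideal.le_of_dvd h1
        have heq : v.asIdeal = v'.asIdeal := v.isMaximal.eq_of_le v'.isPrime.ne_top hle
        exact hv' (HeightOneSpectrum.ext heq.symm)
    · intro i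
      exact (isUnipAt_unip_loc557 v (u i)).1
    · intro Φ hG
      obtain ⟨hΦc, hΦb, hleft, hlev⟩ := hG
      refine ⟨isLevel_lin557 c _
        (fun i k hk => inLevelGroup_conj557 hC _ (hCL _) (huL i) hk) hlev, ?_⟩
      intro y hy g hg
      have ht0 : evF333 v (y : Adl K) ≠ 0 := evF333_unit_ne_zero557 v y
      have hW : wh ψ ν D (lin c (fun i => T3.unip K (loc557 v (u i))) Φ) (tor y * g)
          = (∑ i, c i * ((locChar557 ψ v (evF333 v (y : Adl K) * u i) : Circle) : ℂ))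
            * wh ψ ν D Φ (tor y * g) := by
        rw [wh_lin557 hψc hDfin hΦc hΦb, Finset.sum_mul]
        refine Finset.sum_congr rfl fun i _ => ?_
        rw [wh_rt_unip557 hdata hleft y hg (u i), mul_loc557, locChar557_apply, mul_assoc]
      have horb : InOrbit 𝔪 v y y₀ ↔
          (Valued.v (evF333 v (y : Adl K) * (evF333 v (y₀ : Adl K))⁻¹ - 1)
              ≤ WithZero.exp (-(e : ℤ)) ∧
            Valued.v (evF333 v (y₀ : Adl K) * (evF333 v (y : Adl K))⁻¹ - 1)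
              ≤ WithZero.exp (-(e : ℤ))) := by
        have e1 : ((y * y₀⁻¹ : (Adl K)ˣ) : Adl K).2 v
            = evF333 v (y : Adl K) * (evF333 v (y₀ : Adl K))⁻¹ := by
          show evF333 v ((y * y₀⁻¹ : (Adl K)ˣ) : Adl K) = _
          rw [Units.val_mul, map_mul, evF333_inv557]
        have e2 : ((y₀ * y⁻¹ : (Adl K)ˣ) : Adl K).2 v
            = evF333 v (y₀ : Adl K) * (evF333 v (y : Adl K))⁻¹ := by
          show evF333 v ((y₀ * y⁻¹ : (Adl K)ˣ) : Adl K) = _
          rw [Units.val_mul, map_mul, evF333_inv557]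
        unfold InOrbit
        rw [hC, hC, e1, e2]
      by_cases htR : Valued.v (evF333 v (y : Adl K)) ≤ WithZero.exp (d + e)
      · obtain ⟨hs1, hs0⟩ := hsum _ ht0 htR
        constructor
        · intro ho
          rw [hW, hs1 (horb.1 ho), one_mul]
          exact wh_orbit557 hlev hy hy₀ ho hg
        · intro ho
          rw [hW, hs0 (fun h => ho (horb.2 h)), zero_mul]
      · have hW0 : wh ψ ν D Φ (tor y * g) = 0 :=
          wh_zero_of_large557 hdata hleft hlev hC hχ2 y hg htR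
        constructor
        · intro ho
          rw [hW, hW0, mul_zero, ← wh_orbit557 hlev hy hy₀ ho hg, hW0]
        · intro _
          rw [hW, hW0, mul_zero]
  · -- `y₀` outside the ball: the empty combination
    have e0 : 𝔪 * v.asIdeal ^ 0 = 𝔪 := by
      rw [pow_zero, Ideal.one_eq_top, Ideal.mul_top]
    refine ⟨0, fun i => i.elim0, fun i => i.elim0, 0, ?_⟩
    rw [e0]
    refine ⟨h𝔪, le_rfl, fun _ _ h => h, fun i => i.elim0, ?_⟩
    intro Φ hG
    obtain ⟨hΦc, hΦb, hleft, hlev⟩ := hG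
    have hzero : lin (fun i : Fin 0 => i.elim0) (fun i : Fin 0 => i.elim0) Φ
        = fun _ : G K => (0 : ℂ) := by
      funext x
      simp [lin]
    rw [hzero]
    refine ⟨fun k _ g => rfl, fun y hy g hg => ?_⟩
    have hlin0 : wh ψ ν D (fun _ : G K => (0 : ℂ)) (tor y * g) = 0 := by
      simp [wh]
    have hW0 : wh ψ ν D Φ (tor y₀ * g) = 0 :=
      wh_zero_of_large557 hdata hleft hlev hC hχ2 y₀ hg hR
    exact ⟨fun _ => by rw [hlin0, hW0], fun _ => hlin0⟩

/-! ## 2. The chain with the explicit cell -/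

/-- The predicate of a chain may be replaced by an equivalent one. -/
theorem chainProp_congr941 {W : (G K → ℂ) → G K → ℂ} {L : Finset (HeightOneSpectrum (𝓞 K))}
    {𝔪₀ : Ideal (𝓞 K)} {y₀ : (Adl K)ˣ} {n : ℕ} {c : Fin n → ℂ} {g : Fin n → G K}
    {𝔪 : Ideal (𝓞 K)} {P Q : (Adl K)ˣ → Prop} (hPQ : ∀ Y : (Adl K)ˣ, P Y ↔ Q Y)
    (h : ChainProp23 W L 𝔪₀ y₀ n c g 𝔪 P) : ChainProp23 W L 𝔪₀ y₀ n c g 𝔪 Q := by
  obtain ⟨h1, h2, h3, h4, h5, h6⟩ := h
  refine ⟨h1, h2, h3, h4, (hPQ y₀).1 h5, fun f hf => ⟨(h6 f hf).1, fun Y hY h hh => ?_⟩⟩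
  obtain ⟨a1, a2⟩ := (h6 f hf).2 Y hY h hh
  exact ⟨fun hq => a1 ((hPQ Y).2 hq), fun hq => a2 (fun hp => hq ((hPQ Y).1 hp))⟩

/-- **The chain with the explicit cell**: the cut-off at all places of a finite set `L`, for the
level `𝔪₀` and the point `y₀`; the final level differs from `𝔪₀` at the places of `L` only. -/
theorem chain941 (W : (G K → ℂ) → G K → ℂ)
    (hcut : ∀ (a : HeightOneSpectrum (𝓞 K)) (𝔪 : Ideal (𝓞 K)), 𝔪 ≠ ⊥ →
      ∀ s : (a.adicCompletion K)ˣ, ∃ (n : ℕ) (c : Fin n → ℂ) (p : Fin n → G K) (k : ℕ),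
        CutProp23 W a 𝔪 (iF23 a s) n c p (𝔪 * a.asIdeal ^ k))
    (L : Finset (HeightOneSpectrum (𝓞 K))) :
    ∀ 𝔪₀ : Ideal (𝓞 K), 𝔪₀ ≠ ⊥ → ∀ y₀ : (Adl K)ˣ, SuppIn23 L y₀ →
      ∃ (n : ℕ) (c : Fin n → ℂ) (g : Fin n → G K) (𝔪 : Ideal (𝓞 K)),
        ChainProp23 W L 𝔪₀ y₀ n c g 𝔪 (fun Y => ∀ v ∈ L, InOrbit 𝔪₀ v Y y₀) ∧
        ∀ v : HeightOneSpectrum (𝓞 K), v ∉ L → idealClosure 𝔪 v = idealClosure 𝔪₀ v := by
  classical
  induction L using Finset.induction_on with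
  | empty =>
    intro 𝔪₀ h𝔪₀ y₀ hy₀
    refine ⟨1, fun _ => 1, fun _ => 1, 𝔪₀, ⟨h𝔪₀, le_refl _, fun v _ h => h,
      fun _ => ⟨fun w => trivAtInf_one23 w, fun v _ => trivAtFin_one23 v⟩,
      fun v hv => absurd hv (Finset.notMem_empty v), ?_⟩, fun _ _ => rfl⟩
    intro f hf
    have e : lin (fun _ : Fin 1 => (1 : ℂ)) (fun _ : Fin 1 => (1 : G K)) f = f := by
      funext x
      simp [lin]
    rw [e]
    refine ⟨hf.2.2.2, fun Y hY h _ => ⟨fun _ => ?_, fun hn => absurd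
      (fun v hv => absurd hv (Finset.notMem_empty v)) hn⟩⟩
    rw [eq_one_of_suppIn_empty23 hY, eq_one_of_suppIn_empty23 hy₀]
  | insert a L' ha ih =>
    intro 𝔪₀ h𝔪₀ y₀ hy₀
    have hy₀' : SuppIn23 L' (y₀ * (iF23 a (cF23 a y₀))⁻¹) := suppIn_split23 hy₀
    obtain ⟨n', c', g', 𝔪', hIH, hclos'⟩ := ih 𝔪₀ h𝔪₀ _ hy₀'
    obtain ⟨n, c, p, k, hc⟩ := hcut a 𝔪' hIH.1 (cF23 a y₀)
    have hstep := step23 W ha hy₀' (cF23 a y₀) hIH hc
    rw [mul_comm _ (y₀ * _), inv_mul_cancel_right] at hstep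
    refine ⟨_, _, _, _, chainProp_congr941 (fun Y => ?_) hstep, fun v hv => ?_⟩
    · -- the cell
      have hA : InOrbit 𝔪' a (iF23 a (cF23 a Y)) (iF23 a (cF23 a y₀)) ↔ InOrbit 𝔪₀ a Y y₀ :=
        inOrbit_congr941 (cF23_iF23_same23 a _) (cF23_iF23_same23 a _) (hclos' a ha)
      have hB : ∀ v ∈ L', (InOrbit 𝔪₀ v (Y * (iF23 a (cF23 a Y))⁻¹)
          (y₀ * (iF23 a (cF23 a y₀))⁻¹) ↔ InOrbit 𝔪₀ v Y y₀) := by
        intro v hv
        have hva : v ≠ a := fun e => ha (e ▸ hv)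
        refine inOrbit_congr941 ?_ ?_ rfl
        · rw [map_mul, map_inv, cF23_iF23_ne23 a _ hva, inv_one, mul_one]
        · rw [map_mul, map_inv, cF23_iF23_ne23 a _ hva, inv_one, mul_one]
      constructor
      · rintro ⟨o1, o2⟩ v hv
        rcases Finset.mem_insert.1 hv with rfl | hv'
        · exact hA.1 o1
        · exact (hB v hv').1 (o2 v hv')
      · intro h
        exact ⟨hA.2 (h a (Finset.mem_insert_self a L')),
          fun v hv => (hB v hv).2 (h v (Finset.mem_insert_of_mem hv))⟩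
    · -- the closure of the level outside `insert a L'`
      have hva : v ≠ a := fun e => hv (e ▸ Finset.mem_insert_self a L')
      have hvL : v ∉ L' := fun h => hv (Finset.mem_insert_of_mem h)
      rw [idealClosure_mul_pow941 𝔪' hva k]
      exact hclos' v hvL

end Fermat.Agent.LT.T7.H941

end
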