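import Mathlib
import Fermat.Agent.LT.T7.H941.LocLevel
import Fermat.Agent.LT.T2.H600.WhMean
import Fermat.Agent.LT.T2.H23.Whit

/-!
# Row LT, tower T7, node T7.14.6b.1 `LocC` (helper941, spare) -- part 3: stability of `S`-forms

OFF-MAIN.  A finite combination `lin c g φ = ∑ᵢ cᵢ R(gᵢ) φ` of right translates of an `S`-form
`φ` of `π` by elements `gᵢ` supported at the places of `S` is an `S`-form of `π` as soon as it
has a level with prime factors in `S` (`isSForm_lin941`): the invariances at the infinite places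
and the Hecke relations at `v ∉ S` by commutation, the mean value property by linearity of the
integral (the family of `A0.MeanValueComplex` is continuous: `continuous_family600`), the
cuspidality by `cuspidal_lin_sub23`.
-/

set_option autoImplicit false
set_option linter.unusedSectionVars false
set_option linter.unusedVariables false
set_option linter.style.haveILetI false

open AutomorphicForm IsDedekindDomain NumberField IsDedekindDomain.HeightOneSpectrum MeasureTheory
open Fermat.Agent.LT.H556 Fermat.Agent.LT.H556.A0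

noncomputable section

namespace Fermat.Agent.LT.T7.H941

open Fermat.Agent.LT Fermat.Agent.LT.T2.H941 Fermat.Agent.LT.T2.H23 Fermat.Agent.LT.T2
open Fermat.Agent.LT.T7

variable {K : Type} [Field K] [NumberField K]

/-- Right invariance under an element commuting with the `gᵢ`. -/
theorem lin_inv941 {φ : G K → ℂ} {n : ℕ} (c : Fin n → ℂ) (g : Fin n → G K) {z : G K}
    (hz : ∀ i, z * g i = g i * z) {b : ℂ} (hφ : ∀ x : G K, φ (x * z) = b * φ x) (x : G K) :
    lin c g φ (x * z) = b * lin c g φ x := by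
  rw [lin_apply23, lin_apply23, Finset.mul_sum]
  refine Finset.sum_congr rfl fun i _ => ?_
  rw [mul_assoc x z, hz i, ← mul_assoc, hφ]
  ring

/-- The Hecke relations at a place where the `gᵢ` are trivial. -/
theorem hecke_lin941 {φ : G K → ℂ} {v : HeightOneSpectrum (𝓞 K)} {a b : ℂ}
    (hE : IsHeckeEigenAt φ v a b) {n : ℕ} (c : Fin n → ℂ) (g : Fin n → G K)
    (hg : ∀ i, TrivAtFin v (g i)) : IsHeckeEigenAt (lin c g φ) v a b := by
  have hcomm : ∀ h : G K, IsLocalAtFin v h → ∀ i, h * g i = g i * h := by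
    intro h hh i
    refine comm_of_disj23 (fun v' => ?_) (fun w' => Or.inl (hh.1 w'))
    by_cases e : v' = v
    · right
      rw [e]
      exact hg i
    · left
      exact hh.2 v' e
  refine ⟨fun H hH g₀ => ?_, fun z hz g₀ => ?_⟩
  · have e1 : ∀ h ∈ H, lin c g φ (g₀ * h) = ∑ i, c i * φ (g₀ * g i * h) := by
      intro h hh
      rw [lin_apply23]
      refine Finset.sum_congr rfl fun i _ => ?_
      rw [mul_assoc g₀ h, hcomm h (hH.2.1 h hh).1 i, ← mul_assoc]
    rw [Finset.sum_congr rfl e1, Finset.sum_comm, lin_apply23, Finset.mul_sum]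
    refine Finset.sum_congr rfl fun i _ => ?_
    rw [← Finset.mul_sum, hE.1 H hH (g₀ * g i)]
    ring
  · exact lin_inv941 c g (hcomm z hz.1) (fun x => hE.2 z hz x) g₀

/-- The mean value property of a combination of right translates by elements which are trivial
at the infinite places. -/
theorem meanValueComplex_lin941 {φ : G K → ℂ} (hc : Continuous φ) {w : InfinitePlace K}
    (hM : MeanValueComplex φ w) {n : ℕ} (c : Fin n → ℂ) (g : Fin n → G K)
    (hg : ∀ i, ∀ w' : InfinitePlace K, TrivAtInf w' (g i)) :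
    MeanValueComplex (lin c g φ) w := by
  intro d hd Y hY g₀
  have hYc := T2.H600.continuous_family600 w d Y hY
  have hcomm : ∀ (α β : ℝ) (i : Fin n), Y α β * g i = g i * Y α β := fun α β i =>
    comm_of_disj23 (fun v => Or.inl ((hY α β).1.2 v)) (fun w' => Or.inr (hg i w'))
  obtain ⟨F, hF⟩ : ∃ F : Fin n → ℝ → ℝ → ℂ,
      F = fun i α β => c i * (φ (g₀ * g i * Y α β) * ((Real.sin β : ℝ) : ℂ)) := ⟨_, rfl⟩
  have hFc : ∀ i, Continuous (Function.uncurry (F i)) := by
    intro i
    have h1 : Continuous fun p : ℝ × ℝ => g₀ * g i * Y p.1 p.2 := continuous_const.mul hYc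
    have h3 : Continuous fun p : ℝ × ℝ => ((Real.sin p.2 : ℝ) : ℂ) :=
      Complex.continuous_ofReal.comp (Real.continuous_sin.comp continuous_snd)
    rw [hF]
    exact continuous_const.mul ((hc.comp h1).mul h3)
  have e1 : ∀ α β : ℝ, lin c g φ (g₀ * Y α β) * ((Real.sin β : ℝ) : ℂ) = ∑ i, F i α β := by
    intro α β
    rw [lin_apply23, Finset.sum_mul, hF]
    refine Finset.sum_congr rfl fun i _ => ?_
    rw [mul_assoc g₀, hcomm α β i, ← mul_assoc g₀]
    ring
  have hin : ∀ (α : ℝ) (i : Fin n), IntervalIntegrable (F i α) volume 0 Real.pi := fun α i =>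
    ((hFc i).comp (Continuous.prodMk continuous_const continuous_id)).intervalIntegrable _ _
  have hout : ∀ i : Fin n, IntervalIntegrable
      (fun α => ∫ β in (0 : ℝ)..Real.pi, F i α β) volume 0 (2 * Real.pi) := fun i =>
    (intervalIntegral.continuous_parametric_intervalIntegral_of_continuous'
      (hFc i) 0 Real.pi).intervalIntegrable _ _
  have hval : ∀ i : Fin n,
      (∫ α in (0 : ℝ)..(2 * Real.pi), ∫ β in (0 : ℝ)..Real.pi, F i α β)
        = c i * (((4 * Real.pi * (d / Real.sinh d) : ℝ) : ℂ) * φ (g₀ * g i)) := by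
    intro i
    have h := hM d hd Y hY (g₀ * g i)
    rw [← h, ← intervalIntegral.integral_const_mul]
    refine intervalIntegral.integral_congr fun α _ => ?_
    show (∫ β in (0 : ℝ)..Real.pi, F i α β)
      = c i * ∫ β in (0 : ℝ)..Real.pi, φ (g₀ * g i * Y α β) * ((Real.sin β : ℝ) : ℂ)
    rw [← intervalIntegral.integral_const_mul, hF]
  calc (∫ α in (0 : ℝ)..(2 * Real.pi), ∫ β in (0 : ℝ)..Real.pi,
          lin c g φ (g₀ * Y α β) * ((Real.sin β : ℝ) : ℂ))
      = ∫ α in (0 : ℝ)..(2 * Real.pi), ∑ i, ∫ β in (0 : ℝ)..Real.pi, F i α β := by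
        refine intervalIntegral.integral_congr fun α _ => ?_
        show (∫ β in (0 : ℝ)..Real.pi, lin c g φ (g₀ * Y α β) * ((Real.sin β : ℝ) : ℂ))
          = ∑ i, ∫ β in (0 : ℝ)..Real.pi, F i α β
        rw [← intervalIntegral.integral_finsetSum (fun i _ => hin α i)]
        exact intervalIntegral.integral_congr fun β _ => e1 α β
    _ = ∑ i, ∫ α in (0 : ℝ)..(2 * Real.pi), ∫ β in (0 : ℝ)..Real.pi, F i α β :=
        intervalIntegral.integral_finsetSum (fun i _ => hout i)
    _ = ∑ i, c i * (((4 * Real.pi * (d / Real.sinh d) : ℝ) : ℂ) * φ (g₀ * g i)) :=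
        Finset.sum_congr rfl fun i _ => hval i
    _ = ((4 * Real.pi * (d / Real.sinh d) : ℝ) : ℂ) * lin c g φ g₀ := by
        rw [lin_apply23, Finset.mul_sum]
        refine Finset.sum_congr rfl fun i _ => ?_
        ring

/-- Cuspidality of a combination of right translates. -/
theorem cuspidal_lin941 (hA : T1.AddFundDomC K) {φ : G K → ℂ} (hc : Continuous φ)
    (hb : ∃ C : ℝ, ∀ g : G K, ‖φ g‖ ≤ C) (hcu : IsCuspidalFn φ) {n : ℕ} (c : Fin n → ℂ)
    (g : Fin n → G K) : IsCuspidalFn (lin c g φ) := by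
  have h := cuspidal_lin_sub23 hA c g (fun i : Fin 0 => i.elim0) (fun i : Fin 0 => i.elim0)
    hc hb hcu hc hb hcu
  have e : (fun x => lin c g φ x - lin (fun i : Fin 0 => i.elim0) (fun i : Fin 0 => i.elim0) φ x)
      = lin c g φ := by
    funext x
    simp [lin]
  rw [e] at h
  exact h

/-- **Stability of the `S`-forms** under finite combinations of right translates by elements
supported at `S`. -/
theorem isSForm_lin941 (hcplx : TotCplx K) (hA : T1.AddFundDomC K)
    {π : HeckeEigensystem K ℂ} {S : Finset (HeightOneSpectrum (𝓞 K))} {φ : G K → ℂ}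
    (hφ : Rigid.IsSForm π S φ) {n : ℕ} (c : Fin n → ℂ) (g : Fin n → G K)
    (hg : ∀ i, GSuppIn23 S (g i)) {𝔪 : Ideal (𝓞 K)} (h𝔪 : 𝔪 ≠ ⊥)
    (hsupp : ∀ v : HeightOneSpectrum (𝓞 K), v.asIdeal ∣ 𝔪 → v ∈ S)
    (hlev : IsLevel 𝔪 (lin c g φ)) : Rigid.IsSForm π S (lin c g φ) where
  cont := continuous_lin23 c g hφ.cont
  bdd := bdd_lin23 c g hφ.bdd
  left_inv := leftInv_lin23 c g hφ.left_inv
  level_inv := ⟨𝔪, h𝔪, hsupp, hlev⟩
  arch_scalar := by
    intro w z hz x
    have h := lin_inv941 c g (z := z) (b := 1)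
      (fun i => comm_of_disj23 (fun v => Or.inl (hz.1.2 v)) (fun w' => Or.inr ((hg i).1 w')))
      (fun x => by rw [one_mul]; exact hφ.arch_scalar w z hz x) x
    rw [one_mul] at h
    exact h
  arch_compact := by
    intro w z hz x
    have h := lin_inv941 c g (z := z) (b := 1)
      (fun i => comm_of_disj23 (fun v => Or.inl (hz.1.2 v)) (fun w' => Or.inr ((hg i).1 w')))
      (fun x => by rw [one_mul]; exact hφ.arch_compact w z hz x) x
    rw [one_mul] at h
    exact h
  mean_complex := fun w hw =>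
    meanValueComplex_lin941 hφ.cont (hφ.mean_complex w hw) c g (fun i => (hg i).1)
  mean_real := fun w hw => absurd hw (InfinitePlace.not_isReal_iff_isComplex.mpr (hcplx w))
  cuspidal := cuspidal_lin941 hA hφ.cont hφ.bdd hφ.cuspidal c g
  hecke := fun v hv => hecke_lin941 (hφ.hecke v hv) c g (fun i => (hg i).2 v hv)

/-- A right translate is a combination with one term. -/
theorem rt_eq_lin941 (h : G K) (f : G K → ℂ) :
    rt h f = lin (fun _ : Fin 1 => (1 : ℂ)) (fun _ : Fin 1 => h) f := by
  funext x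
  simp [lin, rt]

end Fermat.Agent.LT.T7.H941

end
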