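import Mathlib
import Fermat.Agent.LT.T7.H941.LocCut
import Fermat.Agent.LT.T7.H941.LocForm
import Fermat.Agent.LT.T7.H941.WhitLocal
import Fermat.Agent.LT.T2.H941.SmoUncond

/-!
# Row LT, tower T7, node T7.14.6b.1 `LocC` -- VERBATIM (helper941, spare of row 1829)

OFF-MAIN.  `locC941 : Rigid.LocC K`, unconditional, for every number field `K` (the hypothesis
`TotCplx K` of the Prop is used for the empty field `mean_real` only).

## The argument (the closed leaves of T2.10 in the vocabulary of `RigidWhit.lean`)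

1. `W_φ(a(y*)) ≠ 0`, `W_φ'(a(y*')) ≠ 0` for some ideles (`ExtendC`, helper439; `y*' = y*` if
   `φ = φ'`).  `y₀`, `y₁` = the parts of `y*`, `y*'` in `S`; `τ = y₁ / y₀`, `f₂ = R(a(τ)) φ'`
   (`τ = 1`, `f₂ = φ'` if `φ = φ'`).
2. `𝔪₀ = (∏_{v ∈ S} v)^k · π.level · π'.level · ∏_{v ∈ S} v` is a common level of `φ` and `f₂`
   with prime factors exactly `S` (`isLevel_rt_tor941`, `exists_scale_ideal941`), and `f₂` is an
   `S`-form of `π'` (`isSForm_lin941`).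
3. The chain of cut-offs over `S` for `(𝔪₀, y₀)` (`chain941`): ONE operator `A = lin c g`, `g`
   supported in `S`, with `W_{A f}(a(y)) = [y ∈ cell] · W_f(a(y₀ y^S))` for every `f` of level
   `𝔪₀` and EVERY idele `y`, `y^S` = the part of `y` outside `S`, cell = `y₀ (1 + 𝔪₀ 𝒪_S)`.
4. `φ₁ = A φ`, `φ₁' = A f₂`, `𝔪` = the level of the chain, `𝔠 = 𝔪₀`.
-/

set_option autoImplicit false
set_option linter.unusedSectionVars false
set_option linter.unusedVariables false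
set_option linter.style.haveILetI false
set_option maxHeartbeats 1600000

open AutomorphicForm IsDedekindDomain NumberField IsDedekindDomain.HeightOneSpectrum MeasureTheory
open Fermat.Agent.LT.H556 Fermat.Agent.LT.H556.A0

noncomputable section

namespace Fermat.Agent.LT.T7.H941

open Fermat.Agent.LT Fermat.Agent.LT.T2.H941 Fermat.Agent.LT.T2.H23 Fermat.Agent.LT.T2
open Fermat.Agent.LT.T7

variable {K : Type} [Field K] [NumberField K]

/-- A prime dividing a product of primes is one of them. -/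
theorem mem_of_dvd_prod941 {S : Finset (HeightOneSpectrum (𝓞 K))} {v : HeightOneSpectrum (𝓞 K)}
    (h : v.asIdeal ∣ ∏ v' ∈ S, v'.asIdeal) : v ∈ S := by
  obtain ⟨v', hv', hdvd⟩ := (Prime.dvd_finsetProd_iff v.prime _).1 h
  have hle : v'.asIdeal ≤ v.asIdeal := Ideal.le_of_dvd hdvd
  have heq : v'.asIdeal = v.asIdeal := v'.isMaximal.eq_of_le v.isPrime.ne_top hle
  have : v' = v := HeightOneSpectrum.ext heq
  exact this ▸ hv'

/-- The part in `S` of an idele. -/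
theorem suppIn_pF941 (S : Finset (HeightOneSpectrum (𝓞 K))) (y : (Adl K)ˣ) :
    SuppIn23 S (pF23 S (fun v => cF23 v y)) :=
  ⟨fun w => cI23_pF23 _ _ w, fun v hv => cF23_pF23_of_notMem23 _ hv⟩

/-- **NODE T7.14.6b.1 `LocC`**, verbatim, unconditional. -/
theorem locC941 : Rigid.LocC K := by
  classical
  letI : MeasurableSpace (Adl K) := borel (Adl K)
  haveI : BorelSpace (Adl K) := ⟨rfl⟩
  intro hcplx ψ hstd hnd ν D hνH hDm hDf hDfin π π' φ φ' hφ hφ' S hun hg hg'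
  have hdata : IsWhitData ψ ν D := isWhitData_of941 hstd hnd hun hνH hDm hDf hDfin
  have hA : T1.AddFundDomC K := (T1.t1Out K).addFundDom
  have hS1 : Rigid.IsSForm π S φ := Rigid.isSForm_of_A0 hφ hg
  have hS2 : Rigid.IsSForm π' S φ' := Rigid.isSForm_of_A0 hφ' hg'
  -- 1. non-vanishing on the torus
  have hne : ∀ (π₁ : HeckeEigensystem K ℂ) (f : G K → ℂ), IsSph0CuspFormFor π₁ f →
      ∃ y : (Adl K)ˣ, wh ψ ν D f (tor y) ≠ 0 := by
    intro π₁ f hf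
    by_contra hcon
    push Not at hcon
    obtain ⟨g, hg⟩ := hf.ne_zero
    exact hg (extend_uncond K ψ ν D hdata π₁.level π₁.level_ne_bot f
      ⟨isCuspFn_of_sph0 hf, fun v hv => ⟨π₁.b v, (hf.hecke v hv).2⟩⟩ hcon g)
  obtain ⟨ystar, hystar⟩ := hne π φ hφ
  obtain ⟨ystar', hystar', hsame⟩ : ∃ y : (Adl K)ˣ,
      wh ψ ν D φ' (tor y) ≠ 0 ∧ (φ = φ' → y = ystar) := by
    by_cases h : φ = φ'
    · exact ⟨ystar, by rw [← h]; exact hystar, fun _ => rfl⟩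
    · obtain ⟨y, hy⟩ := hne π' φ' hφ'
      exact ⟨y, hy, fun h' => absurd h' h⟩
  -- the parts in `S`
  obtain ⟨y₀, hy₀d⟩ : ∃ y₀ : (Adl K)ˣ, y₀ = pF23 S (fun v => cF23 v ystar) := ⟨_, rfl⟩
  obtain ⟨y₁, hy₁d⟩ : ∃ y₁ : (Adl K)ˣ, y₁ = pF23 S (fun v => cF23 v ystar') := ⟨_, rfl⟩
  have hy₀S : SuppIn23 S y₀ := by rw [hy₀d]; exact suppIn_pF941 S ystar
  have hy₁S : SuppIn23 S y₁ := by rw [hy₁d]; exact suppIn_pF941 S ystar'
  have cy₀ : ∀ v ∈ S, cF23 v y₀ = cF23 v ystar := fun v hv => by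
    rw [hy₀d, cF23_pF23_of_mem23 _ hv]
  have cy₁ : ∀ v ∈ S, cF23 v y₁ = cF23 v ystar' := fun v hv => by
    rw [hy₁d, cF23_pF23_of_mem23 _ hv]
  -- the quotient `τ`
  obtain ⟨τ, hτd⟩ : ∃ τ : (Adl K)ˣ, τ = y₁ * y₀⁻¹ := ⟨_, rfl⟩
  have hτI : ∀ w : InfinitePlace K, cI23 w τ = 1 := by
    intro w
    rw [hτd, map_mul, map_inv, hy₀S.1 w, hy₁S.1 w, inv_one, mul_one]
  have hτS : ∀ v : HeightOneSpectrum (𝓞 K), v ∉ S → cF23 v τ = 1 := by
    intro v hv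
    rw [hτd, map_mul, map_inv, hy₀S.2 v hv, hy₁S.2 v hv, inv_one, mul_one]
  have hτsame : φ = φ' → τ = 1 := by
    intro h
    rw [hτd, hy₁d, hsame h, ← hy₀d, mul_inv_cancel]
  have hτG : GSuppIn23 S (tor τ) :=
    ⟨fun w => trivAtInf_tor23 (hτI w), fun v hv => trivAtFin_tor23 (hτS v hv)⟩
  -- 2. the levels
  obtain ⟨k, hk1, hk2⟩ := exists_scale_ideal941 S τ hτS
  obtain ⟨𝔫₀, h𝔫₀⟩ : ∃ 𝔫₀ : Ideal (𝓞 K),
      𝔫₀ = π.level * π'.level * ∏ v ∈ S, v.asIdeal := ⟨_, rfl⟩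
  obtain ⟨𝔪₀, h𝔪₀⟩ : ∃ 𝔪₀ : Ideal (𝓞 K), 𝔪₀ = (∏ v ∈ S, v.asIdeal) ^ k * 𝔫₀ := ⟨_, rfl⟩
  have hprod0 : (∏ v ∈ S, v.asIdeal) ≠ 0 :=
    Finset.prod_ne_zero_iff.2 fun v _ => by rw [Ideal.zero_eq_bot]; exact v.ne_bot
  have h𝔫₀ne : 𝔫₀ ≠ 0 := by
    rw [h𝔫₀]
    exact mul_ne_zero (mul_ne_zero (by rw [Ideal.zero_eq_bot]; exact π.level_ne_bot)
      (by rw [Ideal.zero_eq_bot]; exact π'.level_ne_bot)) hprod0
  have h𝔪₀ne : 𝔪₀ ≠ ⊥ := by
    rw [h𝔪₀, ← Ideal.zero_eq_bot]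
    exact mul_ne_zero (pow_ne_zero k hprod0) h𝔫₀ne
  have hle1 : 𝔫₀ ≤ π.level := by
    rw [h𝔫₀]
    exact Ideal.mul_le_left.trans Ideal.mul_le_left
  have hle2 : 𝔫₀ ≤ π'.level := by
    rw [h𝔫₀]
    exact Ideal.mul_le_left.trans Ideal.mul_le_right
  have hle0 : 𝔪₀ ≤ 𝔫₀ := by rw [h𝔪₀]; exact Ideal.mul_le_right
  have h𝔪₀supp : ∀ v : HeightOneSpectrum (𝓞 K), v.asIdeal ∣ 𝔪₀ ↔ v ∈ S := by
    intro v
    constructor
    · intro h
      rw [h𝔪₀] at h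
      rcases v.prime.dvd_or_dvd h with h1 | h1
      · exact mem_of_dvd_prod941 (v.prime.dvd_of_dvd_pow h1)
      · rw [h𝔫₀] at h1
        rcases v.prime.dvd_or_dvd h1 with h2 | h2
        · rcases v.prime.dvd_or_dvd h2 with h3 | h3
          · by_contra hv
            exact (hg v hv).1 h3
          · by_contra hv
            exact (hg' v hv).1 h3
        · exact mem_of_dvd_prod941 h2
    · intro hv
      rw [h𝔪₀, h𝔫₀]
      exact Dvd.dvd.mul_left (Dvd.dvd.mul_left (Finset.dvd_prod_of_mem _ hv) _) _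
  have hLφ : IsLevel 𝔪₀ φ := isLevel_mono23 (hle0.trans hle1) hφ.level_inv
  have hLf₂ : IsLevel 𝔪₀ (rt (tor τ) φ') := by
    rw [h𝔪₀]
    exact isLevel_rt_tor941 τ hτI hk1 hk2 (isLevel_mono23 hle2 hφ'.level_inv)
  have hS2' : Rigid.IsSForm π' S (rt (tor τ) φ') := by
    rw [rt_eq_lin941]
    refine isSForm_lin941 hcplx hA hS2 _ _ (fun _ => hτG) h𝔪₀ne
      (fun v hv => (h𝔪₀supp v).1 hv) ?_
    rw [← rt_eq_lin941]
    exact hLf₂
  have hG1 : Good23 𝔪₀ φ := ⟨hφ.cont, hφ.bdd, hφ.left_inv, hLφ⟩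
  have hG2 : Good23 𝔪₀ (rt (tor τ) φ') := ⟨hS2'.cont, hS2'.bdd, hS2'.left_inv, hLf₂⟩
  -- 3. the chain
  obtain ⟨n, c, g, 𝔪, hch, -⟩ :=
    chain941 (wh ψ ν D) (cutProp941 ψ ν D hdata) S 𝔪₀ h𝔪₀ne y₀ hy₀S
  obtain ⟨m1, m2, m3, m4, m5, m6⟩ := hch
  have h𝔪supp : ∀ v : HeightOneSpectrum (𝓞 K), v.asIdeal ∣ 𝔪 ↔ v ∈ S := by
    intro v
    constructor
    · intro h
      by_contra hv
      exact hv ((h𝔪₀supp v).1 (m3 v hv h))
    · intro hv
      exact dvd_trans ((h𝔪₀supp v).2 hv) (Ideal.dvd_iff_le.mpr m2)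
  -- the formula on the whole torus
  have hform : ∀ f : G K → ℂ, Good23 𝔪₀ f → ∀ y : (Adl K)ˣ,
      ((∀ v ∈ S, InOrbit 𝔪₀ v y y₀) →
        wh ψ ν D (lin c g f) (tor y)
          = wh ψ ν D f (tor (y₀ * (y * (pF23 S (fun v => cF23 v y))⁻¹)))) ∧
      (¬ (∀ v ∈ S, InOrbit 𝔪₀ v y y₀) → wh ψ ν D (lin c g f) (tor y) = 0) := by
    intro f hf y
    obtain ⟨yS, hySd⟩ : ∃ yS : (Adl K)ˣ, yS = pF23 S (fun v => cF23 v y) := ⟨_, rfl⟩
    rw [← hySd]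
    have hyS : SuppIn23 S yS := by rw [hySd]; exact suppIn_pF941 S y
    have hyO : ∀ v ∈ S, TrivAtFin v (tor (y * yS⁻¹)) := fun v hv =>
      trivAtFin_tor23 (by rw [map_mul, map_inv, hySd, cF23_pF23_of_mem23 _ hv, mul_inv_cancel])
    have hP : (∀ v ∈ S, InOrbit 𝔪₀ v yS y₀) ↔ (∀ v ∈ S, InOrbit 𝔪₀ v y y₀) := by
      refine forall₂_congr fun v hv => inOrbit_congr941 ?_ rfl rfl
      rw [hySd, cF23_pF23_of_mem23 _ hv]
    obtain ⟨a1, a2⟩ := (m6 f hf).2 yS hyS (tor (y * yS⁻¹)) hyO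
    have e1 : tor yS * tor (y * yS⁻¹) = tor y := by
      rw [← tor_mul23, mul_comm y, mul_inv_cancel_left]
    have e2 : tor y₀ * tor (y * yS⁻¹) = tor (y₀ * (y * yS⁻¹)) := (tor_mul23 _ _).symm
    rw [e1, e2] at a1
    rw [e1] at a2
    exact ⟨fun h => a1 (hP.2 h), fun h => a2 (fun h' => h (hP.1 h'))⟩
  -- support in the cell
  have hsuppW : ∀ f : G K → ℂ, Good23 𝔪₀ f → ∀ y : (Adl K)ˣ,
      wh ψ ν D (lin c g f) (tor y) ≠ 0 → Rigid.InCell S 𝔪₀ y₀ y := by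
    intro f hf y hy
    refine inCell_of_orbit941 ?_
    by_contra hn
    exact hy ((hform f hf y).2 hn)
  -- constancy on the cell
  have hconstW : ∀ f : G K → ℂ, Good23 𝔪₀ f → ∀ y y' : (Adl K)ˣ,
      Rigid.InCell S 𝔪₀ y₀ y → Rigid.InCell S 𝔪₀ y₀ y' → Rigid.SameOff S y y' →
      wh ψ ν D (lin c g f) (tor y) = wh ψ ν D (lin c g f) (tor y') := by
    intro f hf y y' hy hy' hoff
    have o := orbit_of_inCell941 h𝔪₀ne (fun v hv => (h𝔪₀supp v).2 hv) hy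
    have o' := orbit_of_inCell941 h𝔪₀ne (fun v hv => (h𝔪₀supp v).2 hv) hy'
    rw [(hform f hf y).1 o, (hform f hf y').1 o']
    have e : y * (pF23 S (fun v => cF23 v y))⁻¹ = y' * (pF23 S (fun v => cF23 v y'))⁻¹ := by
      refine idele_ext23 (fun v => ?_) (fun w => ?_)
      · by_cases hv : v ∈ S
        · rw [map_mul, map_inv, cF23_pF23_of_mem23 _ hv, mul_inv_cancel, map_mul, map_inv,
            cF23_pF23_of_mem23 _ hv, mul_inv_cancel]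
        · rw [map_mul, map_inv, cF23_pF23_of_notMem23 _ hv, inv_one, mul_one, map_mul, map_inv,
            cF23_pF23_of_notMem23 _ hv, inv_one, mul_one]
          exact Units.ext (hoff.1 v hv)
      · rw [map_mul, map_inv, cI23_pF23, inv_one, mul_one, map_mul, map_inv, cI23_pF23, inv_one,
          mul_one]
        exact Units.ext (hoff.2 w)
    rw [e]
  -- non-vanishing of `W₁`
  have hnz1 : wh ψ ν D (lin c g φ) (tor ystar) ≠ 0 := by
    have o : ∀ v ∈ S, InOrbit 𝔪₀ v ystar y₀ := fun v hv =>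
      (inOrbit_congr941 (cy₀ v hv).symm rfl rfl).2 (inOrbit_self23 𝔪₀ v y₀)
    rw [(hform φ hG1 ystar).1 o, ← hy₀d, mul_comm ystar, mul_inv_cancel_left]
    exact hystar
  -- non-vanishing of `W₁'`
  obtain ⟨Y, hYd⟩ : ∃ Y : (Adl K)ˣ, Y = y₀ * (ystar' * y₁⁻¹) := ⟨_, rfl⟩
  have cY : ∀ v ∈ S, cF23 v Y = cF23 v y₀ := fun v hv => by
    rw [hYd, map_mul, map_mul, map_inv, cy₁ v hv, mul_inv_cancel, mul_one]
  have hYS : pF23 S (fun v => cF23 v Y) = y₀ := by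
    rw [hy₀d]
    unfold pF23
    refine Finset.prod_congr rfl fun v hv => ?_
    show iF23 v (cF23 v Y) = iF23 v (cF23 v ystar)
    rw [cY v hv, cy₀ v hv]
  have hnz2 : wh ψ ν D (lin c g (rt (tor τ) φ')) (tor Y) ≠ 0 := by
    have o : ∀ v ∈ S, InOrbit 𝔪₀ v Y y₀ := fun v hv =>
      (inOrbit_congr941 (cY v hv) rfl rfl).2 (inOrbit_self23 𝔪₀ v y₀)
    rw [(hform _ hG2 Y).1 o, hYS, mul_comm Y, mul_inv_cancel_left, wh_rt23, ← tor_mul23]
    have e : Y * τ = ystar' := by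
      rw [hYd, hτd]
      have : y₀ * (ystar' * y₁⁻¹) * (y₁ * y₀⁻¹) = ystar' := by
        rw [mul_comm y₀, mul_assoc, mul_comm y₁, ← mul_assoc y₀, mul_inv_cancel, one_mul,
          inv_mul_cancel_right]
      exact this
    rw [e]
    exact hystar'
  -- 4. the output
  refine ⟨lin c g φ, lin c g (rt (tor τ) φ'), 𝔪, 𝔪₀, y₀, ?_, ?_, ?_, ⟨m1, h𝔪supp⟩,
    ⟨h𝔪₀ne, h𝔪₀supp⟩, (m6 φ hG1).1, (m6 _ hG2).1, ⟨ystar, hnz1⟩, ⟨Y, hnz2⟩,
    hsuppW φ hG1, hsuppW _ hG2, hconstW φ hG1, hconstW _ hG2⟩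
  · exact isSForm_lin941 hcplx hA hS1 c g m4 m1 (fun v hv => (h𝔪supp v).1 hv) (m6 φ hG1).1
  · exact isSForm_lin941 hcplx hA hS2' c g m4 m1 (fun v hv => (h𝔪supp v).1 hv) (m6 _ hG2).1
  · intro h
    have e : rt (tor τ) φ' = φ := by
      rw [hτsame h, tor_one23, h]
      funext x
      simp [rt]
    rw [e]

end Fermat.Agent.LT.T7.H941

end
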