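import Mathlib
import Fermat.Agent.LT.T7.H305.MatchCut
import Fermat.Agent.LT.T7.H159.GoodUnit
import Fermat.Agent.LT.H129.Local

/-!
# Row LT, tower T7, level 2, leaf T7.L2.1.C2.7.6 `SuppDownC305` (helper941, registry row 2570)

OFF-MAIN.  `suppDownC941 K : H305.SuppDownC305 K`, VERBATIM (cut of helper305, `MatchCut.lean`),
unconditional, every number field.

If `γ ∈ GL₂(K)` is good outside `S` and `x⁻¹ γ x ∈ GL₂(𝒪_v)` for `v ∉ S`, then `x = t x'` with
`t` in the centraliser `T_𝔸(γ)` and `x'_v ∈ GL₂(𝒪_v)` for `v ∉ S`.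

Proof.  Local statement: helper159 `goodUnit_down159`.  The set of the finite places `v` with
`x_v ∉ GL₂(𝒪_v)` is finite (`finite_nonint941`); induction on a finite set `B` containing the bad
places outside `S` (`suppDown_aux941`): at `v₀ ∈ B \ S` write `x_{v₀} = t₀ u₀`, and replace `x` by
`locFin129 v₀ t₀⁻¹ · x` (the local embedding of helper129 commutes with `γ`:
`locFin_comm941`).
-/

set_option autoImplicit false

open AutomorphicForm IsDedekindDomain NumberField MeasureTheory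

noncomputable section

namespace Fermat.Agent.LT.T7.H941

open Fermat.Agent.LT Fermat.Agent.LT.H556 Fermat.Agent.LT.H556.A0 Fermat.Agent.LT.T7
open Fermat.Agent.LT.T7.H305

/-! ## Local: `U(0)` and integrality -/

section Local

variable {k : Type} [Field k] [Valued k T6.Γ₀]

theorem integral_of_inU941 {g : GL (Fin 2) k} (h : T6.InU 0 g) :
    (∀ i j : Fin 2, Valued.v ((g : Matrix (Fin 2) (Fin 2) k) i j) ≤ 1) ∧
      ∀ i j : Fin 2, Valued.v (((g⁻¹ : GL (Fin 2) k) : Matrix (Fin 2) (Fin 2) k) i j) ≤ 1 := by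
  have he : WithZero.exp (-((0 : ℕ) : ℤ)) = (1 : T6.Γ₀) := by simp
  have hone : ∀ i j : Fin 2, Valued.v ((1 : Matrix (Fin 2) (Fin 2) k) i j) ≤ 1 := by
    intro i j
    rw [Matrix.one_apply]
    split_ifs <;> simp
  constructor
  · intro i j
    have h1 := (h i j).1
    rw [he] at h1
    have e : (g : Matrix (Fin 2) (Fin 2) k) i j
        = ((g : Matrix (Fin 2) (Fin 2) k) i j - (1 : Matrix (Fin 2) (Fin 2) k) i j)
          + (1 : Matrix (Fin 2) (Fin 2) k) i j := by ring
    rw [e]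
    exact Valuation.map_add_le _ h1 (hone i j)
  · intro i j
    have h1 := (h i j).2
    rw [he] at h1
    have e : ((g⁻¹ : GL (Fin 2) k) : Matrix (Fin 2) (Fin 2) k) i j
        = (((g⁻¹ : GL (Fin 2) k) : Matrix (Fin 2) (Fin 2) k) i j
            - (1 : Matrix (Fin 2) (Fin 2) k) i j)
          + (1 : Matrix (Fin 2) (Fin 2) k) i j := by ring
    rw [e]
    exact Valuation.map_add_le _ h1 (hone i j)

end Local

variable {K : Type} [Field K] [NumberField K]

/-! ## Components -/

theorem finGL_eq941 (v : HeightOneSpectrum (𝓞 K)) : finGL305 v = H129.finCompHom129 v := rfl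

theorem finGL_val941 (v : HeightOneSpectrum (𝓞 K)) (h : G K) (i j : Fin 2) :
    ((finGL305 v h : GL (Fin 2) (v.adicCompletion K)) :
      Matrix (Fin 2) (Fin 2) (v.adicCompletion K)) i j = finComp v h i j := rfl

theorem finGL_ratG941 (v : HeightOneSpectrum (𝓞 K)) (γ : GL (Fin 2) K) :
    finGL305 v (T5.ratG γ) = locG305 v γ := by
  apply Units.ext
  ext i j
  rfl

theorem onG_id941 (t : G K) : (T5.AdelicAut.id K).onG t = t := by
  apply Units.ext
  ext i j
  rfl

theorem mem_tA_iff941 (γ : GL (Fin 2) K) (t : G K) :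
    t ∈ tA305 (T5.AdelicAut.id K) γ ↔ t * T5.ratG γ = T5.ratG γ * t := by
  change t⁻¹ * T5.ratG γ * (T5.AdelicAut.id K).onG t = T5.ratG γ ↔ _
  rw [onG_id941]
  constructor
  · intro h
    calc t * T5.ratG γ = t * (t⁻¹ * T5.ratG γ * t) := by rw [h]
      _ = T5.ratG γ * t := by group
  · intro h
    calc t⁻¹ * T5.ratG γ * t = t⁻¹ * (T5.ratG γ * t) := by group
      _ = t⁻¹ * (t * T5.ratG γ) := by rw [h]
      _ = T5.ratG γ := by group

/-- `OutT305` in terms of `U(0)`. -/
theorem outT_iff941 (S : Finset (HeightOneSpectrum (𝓞 K))) (h : G K) :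
    OutT305 S h ↔ ∀ v : HeightOneSpectrum (𝓞 K), v ∉ S → T6.InU 0 (finGL305 v h) := by
  unfold OutT305
  refine forall_congr' fun v => imp_congr_right fun _ => ?_
  constructor
  · rintro ⟨h1, h2⟩
    apply T6.H288.H546.inU_zero_of_integral_h546
    · intro i j
      exact (HeightOneSpectrum.mem_adicCompletionIntegers (𝓞 K) K v).1 (h1 i j)
    · intro i j
      rw [← map_inv]
      exact (HeightOneSpectrum.mem_adicCompletionIntegers (𝓞 K) K v).1 (h2 i j)
  · intro hU
    obtain ⟨a, b⟩ := integral_of_inU941 hU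
    refine ⟨fun i j => (HeightOneSpectrum.mem_adicCompletionIntegers (𝓞 K) K v).2 (a i j),
      fun i j => (HeightOneSpectrum.mem_adicCompletionIntegers (𝓞 K) K v).2 ?_⟩
    have := b i j
    rw [← map_inv] at this
    exact this

/-- The components of `x ∈ GL₂(𝔸_K)` are in `GL₂(𝒪_v)` at almost all `v`. -/
theorem finite_nonint941 (x : G K) :
    {v : HeightOneSpectrum (𝓞 K) | ¬ T6.InU 0 (finGL305 v x)}.Finite := by
  have h1 : ∀ i j : Fin 2, ∀ᶠ v : HeightOneSpectrum (𝓞 K) in Filter.cofinite,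
      ((x : Matrix (Fin 2) (Fin 2) (Adl K)) i j).2 v ∈ v.adicCompletionIntegers K :=
    fun i j => ((x : Matrix (Fin 2) (Fin 2) (Adl K)) i j).2.2
  have h2 : ∀ i j : Fin 2, ∀ᶠ v : HeightOneSpectrum (𝓞 K) in Filter.cofinite,
      (((x⁻¹ : G K) : Matrix (Fin 2) (Fin 2) (Adl K)) i j).2 v ∈ v.adicCompletionIntegers K :=
    fun i j => (((x⁻¹ : G K) : Matrix (Fin 2) (Fin 2) (Adl K)) i j).2.2
  have h3 : ∀ᶠ v : HeightOneSpectrum (𝓞 K) in Filter.cofinite, T6.InU 0 (finGL305 v x) := by
    have a1 := Filter.eventually_all.2 fun i : Fin 2 => Filter.eventually_all.2 (h1 i)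
    have a2 := Filter.eventually_all.2 fun i : Fin 2 => Filter.eventually_all.2 (h2 i)
    filter_upwards [a1, a2] with v hv1 hv2
    apply T6.H288.H546.inU_zero_of_integral_h546
    · intro i j
      exact (HeightOneSpectrum.mem_adicCompletionIntegers (𝓞 K) K v).1 (hv1 i j)
    · intro i j
      rw [← map_inv]
      exact (HeightOneSpectrum.mem_adicCompletionIntegers (𝓞 K) K v).1 (hv2 i j)
  exact Filter.eventually_cofinite.1 h3

/-! ## The local embedding commutes with `γ` -/

theorem locFin_comm941 (v₀ : HeightOneSpectrum (𝓞 K)) (t₀ : GL (Fin 2) (v₀.adicCompletion K))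
    (γ : GL (Fin 2) K) (h : t₀ * locG305 v₀ γ = locG305 v₀ γ * t₀) :
    H129.locFin129 v₀ t₀ * T5.ratG γ = T5.ratG γ * H129.locFin129 v₀ t₀ := by
  apply H129.G_ext129
  · intro w
    rw [map_mul, map_mul, H129.infCompHom129_locFin129, one_mul, mul_one]
  · intro v
    rw [map_mul, map_mul]
    by_cases hv : v = v₀
    · subst hv
      rw [H129.finCompHom129_locFin129, ← finGL_eq941, finGL_ratG941]
      exact h
    · rw [H129.finCompHom129_locFin129_of_ne _ _ hv, one_mul, mul_one]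

/-! ## The induction -/

theorem suppDown_aux941 (γ : GL (Fin 2) K) (S : Finset (HeightOneSpectrum (𝓞 K)))
    (hγ : GoodOut305 S γ) (B : Finset (HeightOneSpectrum (𝓞 K))) :
    ∀ x : G K,
      (∀ v : HeightOneSpectrum (𝓞 K), v ∉ S →
        T6.InU 0 (finGL305 v (x⁻¹ * T5.ratG γ * x))) →
      (∀ v : HeightOneSpectrum (𝓞 K), v ∉ S → v ∉ B → T6.InU 0 (finGL305 v x)) →
      ∃ t : G K, t ∈ tA305 (T5.AdelicAut.id K) γ ∧
        ∀ v : HeightOneSpectrum (𝓞 K), v ∉ S → T6.InU 0 (finGL305 v (t⁻¹ * x)) := by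
  classical
  induction B using Finset.induction_on with
  | empty =>
    intro x _ hx
    refine ⟨1, Subgroup.one_mem _, fun v hv => ?_⟩
    rw [inv_one, one_mul]
    exact hx v hv (Finset.notMem_empty v)
  | insert v₀ B' hv₀ ih =>
    intro x hconj hx
    by_cases hS : v₀ ∈ S
    · apply ih x hconj
      intro v hv hvB
      apply hx v hv
      rw [Finset.mem_insert]
      rintro (rfl | h)
      · exact hv hS
      · exact hvB h
    · obtain ⟨hγU, hγd⟩ := hγ v₀ hS
      have hloc : T6.InU 0 ((finGL305 v₀ x)⁻¹ * locG305 v₀ γ * finGL305 v₀ x) := by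
        have := hconj v₀ hS
        rwa [map_mul, map_mul, map_inv, finGL_ratG941] at this
      obtain ⟨t₀, u₀, hcomm, hu₀, hx₀⟩ :=
        H159.goodUnit_down159 (locG305 v₀ γ) (finGL305 v₀ x) hγU hγd hloc
      have hT₀c : H129.locFin129 v₀ t₀ * T5.ratG γ = T5.ratG γ * H129.locFin129 v₀ t₀ :=
        locFin_comm941 v₀ t₀ γ hcomm
      have hT₀ : H129.locFin129 v₀ t₀ ∈ tA305 (T5.AdelicAut.id K) γ :=
        (mem_tA_iff941 γ _).2 hT₀c
      have h1 : ∀ v : HeightOneSpectrum (𝓞 K), v ∉ S →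
          T6.InU 0 (finGL305 v (((H129.locFin129 v₀ t₀)⁻¹ * x)⁻¹ * T5.ratG γ
            * ((H129.locFin129 v₀ t₀)⁻¹ * x))) := by
        intro v hv
        have e : ((H129.locFin129 v₀ t₀)⁻¹ * x)⁻¹ * T5.ratG γ * ((H129.locFin129 v₀ t₀)⁻¹ * x)
            = x⁻¹ * T5.ratG γ * x := by
          calc ((H129.locFin129 v₀ t₀)⁻¹ * x)⁻¹ * T5.ratG γ * ((H129.locFin129 v₀ t₀)⁻¹ * x)
              = x⁻¹ * (H129.locFin129 v₀ t₀ * T5.ratG γ) * (H129.locFin129 v₀ t₀)⁻¹ * x := by
                group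
            _ = x⁻¹ * (T5.ratG γ * H129.locFin129 v₀ t₀) * (H129.locFin129 v₀ t₀)⁻¹ * x := by
                rw [hT₀c]
            _ = x⁻¹ * T5.ratG γ * x := by group
        rw [e]
        exact hconj v hv
      have h2 : ∀ v : HeightOneSpectrum (𝓞 K), v ∉ S → v ∉ B' →
          T6.InU 0 (finGL305 v ((H129.locFin129 v₀ t₀)⁻¹ * x)) := by
        intro v hv hvB
        rw [map_mul, map_inv]
        by_cases hvv : v = v₀
        · subst hvv
          rw [finGL_eq941, H129.finCompHom129_locFin129, ← finGL_eq941, hx₀, inv_mul_cancel_left]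
          exact hu₀
        · rw [finGL_eq941, H129.finCompHom129_locFin129_of_ne _ _ hvv, inv_one, one_mul,
            ← finGL_eq941]
          apply hx v hv
          rw [Finset.mem_insert]
          rintro (h | h)
          · exact hvv h
          · exact hvB h
      obtain ⟨t', ht', hout⟩ := ih ((H129.locFin129 v₀ t₀)⁻¹ * x) h1 h2
      refine ⟨H129.locFin129 v₀ t₀ * t', Subgroup.mul_mem _ hT₀ ht', fun v hv => ?_⟩
      have e : (H129.locFin129 v₀ t₀ * t')⁻¹ * x = t'⁻¹ * ((H129.locFin129 v₀ t₀)⁻¹ * x) := by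
        group
      rw [e]
      exact hout v hv

/-! ## The leaf -/

/-- **T7.L2.1.C2.7.6 `H305.SuppDownC305`**, verbatim, unconditional. -/
theorem suppDownC941 (K : Type) [Field K] [NumberField K] : SuppDownC305 K := by
  intro γ S hγ x hx
  classical
  obtain ⟨t, ht, hout⟩ := suppDown_aux941 γ S hγ (finite_nonint941 x).toFinset x
    ((outT_iff941 S _).1 hx)
    (fun v _ hvB => by
      by_contra h
      exact hvB ((Set.Finite.mem_toFinset _).2 h))
  exact ⟨t, ht, (outT_iff941 S _).2 hout⟩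

end Fermat.Agent.LT.T7.H941

end
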