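import Mathlib
import Fermat.Agent.LT.T7.H340.UpFactSpec
import Fermat.Agent.LT.T7.H941.SuppDown

/-!
# Row LT, tower T7, level 2, leaf T7.L2.1.C2.7.13.1.A2 `SuppUpC340` -- THE GLOBAL GLUE
(helper941, spare of row 2746)

OFF-MAIN.  PROVED, nothing assumed:

    suppUp_glue941    : (∀ v ∉ S, LocSuppUp941 s δ v) → (twisted support statement for `S'`)
    suppUpC_of_loc941 : LocSuppUpC941 K K' → H340.SuppUpC340 K K'            (VERBATIM)

`LocSuppUp941 s δ v` is the LOCAL-TO-GLOBAL statement AT ONE PLACE `v` of `K`: if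
`x⁻¹ δ σ(x) ∈ GL₂(𝒪_w)` at the places `w ∣ v`, there is `t ∈ T_𝔸(δ)` (the twisted centraliser),
supported at the places over `v`, with `(t⁻¹ x)_w ∈ GL₂(𝒪_w)` for `w ∣ v`.  (Inert `v`:
`locFin129 w t_w` with `t_w` of helper159 `goodUnit_up159`; split `v`: the product of the
`locFin129 (w j) (i_j t_j)` with `t` of helper159 `goodUnit_split159`.)

Proof of the glue: as `SuppDownC305` (`SuppDown.lean`): `x_w ∈ GL₂(𝒪_w)` for almost all `w`;
induction on a finite set `B` of places of `K` such that `x_w ∈ GL₂(𝒪_w)` for the `w ∉ S'` which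
do not lie over a place of `B`; `x⁻¹ δ σ(x)` does not change if `x` is replaced by `t⁻¹ x`,
`t ∈ T_𝔸(δ)`.
-/

set_option autoImplicit false

open AutomorphicForm IsDedekindDomain NumberField MeasureTheory

noncomputable section

namespace Fermat.Agent.LT.T7.H941

open Fermat.Agent.LT Fermat.Agent.LT.H556 Fermat.Agent.LT.H556.A0 Fermat.Agent.LT.T7
open Fermat.Agent.LT.T7.H305 Fermat.Agent.LT.T7.H340

/-! ## The twisted centraliser -/

section OneField

variable {K : Type} [Field K] [NumberField K]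

theorem mem_tA_tw941 (s : T5.AdelicAut K) (δ : GL (Fin 2) K) (t : G K) :
    t ∈ tA305 s δ ↔ t⁻¹ * T5.ratG δ * s.onG t = T5.ratG δ := Iff.rfl

/-- `x⁻¹ δ σ(x)` does not change if `x` is multiplied on the left by an element of `T_𝔸(δ)`. -/
theorem twConj_inv_mul941 (s : T5.AdelicAut K) (δ : GL (Fin 2) K) {t : G K}
    (ht : t ∈ tA305 s δ) (x : G K) :
    (t⁻¹ * x)⁻¹ * T5.ratG δ * s.onG (t⁻¹ * x) = x⁻¹ * T5.ratG δ * s.onG x := by
  have h : t⁻¹ * T5.ratG δ * s.onG t = T5.ratG δ := ht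
  have h' : t * T5.ratG δ * (s.onG t)⁻¹ = T5.ratG δ := by
    calc t * T5.ratG δ * (s.onG t)⁻¹
        = t * (t⁻¹ * T5.ratG δ * s.onG t) * (s.onG t)⁻¹ := by rw [h]
      _ = T5.ratG δ := by group
  calc (t⁻¹ * x)⁻¹ * T5.ratG δ * s.onG (t⁻¹ * x)
      = x⁻¹ * (t * T5.ratG δ * (s.onG t)⁻¹) * s.onG x := by
        rw [map_mul, map_inv]
        group
    _ = x⁻¹ * T5.ratG δ * s.onG x := by rw [h']

end OneField

variable {K K' : Type} [Field K] [NumberField K] [Field K'] [NumberField K'] [Algebra K K']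

/-! ## Places over places -/

/-- At most one place of `K` lies under a place of `K'`. -/
theorem placeOver_unique941 {v v' : HeightOneSpectrum (𝓞 K)} {w : HeightOneSpectrum (𝓞 K')}
    (h : PlaceOver K K' v w) (h' : PlaceOver K K' v' w) : v = v' := by
  ext1
  ext x
  exact (h x (algebraMap (𝓞 K) (𝓞 K') x) rfl).trans (h' x (algebraMap (𝓞 K) (𝓞 K') x) rfl).symm

variable (K) in
/-- The place of `K` under a place of `K'`. -/
def under941 (w : HeightOneSpectrum (𝓞 K')) : HeightOneSpectrum (𝓞 K) where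
  asIdeal := Ideal.comap (algebraMap (𝓞 K) (𝓞 K')) w.asIdeal
  isPrime := Ideal.comap_isPrime _ _
  ne_bot := Ideal.IsIntegral.comap_ne_bot (𝓞 K) w.ne_bot

theorem placeOver_under941 (w : HeightOneSpectrum (𝓞 K')) :
    PlaceOver K K' (under941 K w) w := by
  intro x y hxy
  have hy : y = algebraMap (𝓞 K) (𝓞 K') x := by
    apply RingOfIntegers.ext
    exact hxy
  rw [hy]
  exact Ideal.mem_comap

/-- A place over a place outside `S` is outside `S'`. -/
theorem notMem_of_placeOver941 {S : Finset (HeightOneSpectrum (𝓞 K))}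
    {S' : Finset (HeightOneSpectrum (𝓞 K'))} (hSS' : IsOver305 S S')
    {v : HeightOneSpectrum (𝓞 K)} {w : HeightOneSpectrum (𝓞 K')} (hv : v ∉ S)
    (hw : PlaceOver K K' v w) : w ∉ S' := by
  intro hwS
  obtain ⟨v', hv', hw'⟩ := (hSS' w).1 hwS
  rw [placeOver_unique941 hw hw'] at hv
  exact hv hv'

/-! ## The local-to-global statement at one place -/

/-- **The local-to-global statement at the place `v` of `K`.** -/
def LocSuppUp941 (s : T5.AdelicAut K') (δ : GL (Fin 2) K') (v : HeightOneSpectrum (𝓞 K)) :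
    Prop :=
  ∀ x : G K',
    (∀ w : HeightOneSpectrum (𝓞 K'), PlaceOver K K' v w →
      T6.InU 0 (finGL305 w (x⁻¹ * T5.ratG δ * s.onG x))) →
    ∃ t : G K', t ∈ tA305 s δ ∧
      (∀ w : HeightOneSpectrum (𝓞 K'), ¬ PlaceOver K K' v w → finGL305 w t = 1) ∧
      ∀ w : HeightOneSpectrum (𝓞 K'), PlaceOver K K' v w → T6.InU 0 (finGL305 w (t⁻¹ * x))

/-! ## The induction -/

theorem suppUp_aux941 (s : T5.AdelicAut K') (δ : GL (Fin 2) K')
    (S : Finset (HeightOneSpectrum (𝓞 K))) (S' : Finset (HeightOneSpectrum (𝓞 K')))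
    (hSS' : IsOver305 S S')
    (hloc : ∀ v : HeightOneSpectrum (𝓞 K), v ∉ S → LocSuppUp941 (K := K) s δ v)
    (B : Finset (HeightOneSpectrum (𝓞 K))) :
    ∀ x : G K',
      (∀ w : HeightOneSpectrum (𝓞 K'), w ∉ S' →
        T6.InU 0 (finGL305 w (x⁻¹ * T5.ratG δ * s.onG x))) →
      (∀ w : HeightOneSpectrum (𝓞 K'), w ∉ S' →
        (∀ v ∈ B, ¬ PlaceOver K K' v w) → T6.InU 0 (finGL305 w x)) →
      ∃ t : G K', t ∈ tA305 s δ ∧
        ∀ w : HeightOneSpectrum (𝓞 K'), w ∉ S' → T6.InU 0 (finGL305 w (t⁻¹ * x)) := by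
  classical
  induction B using Finset.induction_on with
  | empty =>
    intro x _ hx
    refine ⟨1, Subgroup.one_mem _, fun w hw => ?_⟩
    rw [inv_one, one_mul]
    exact hx w hw (fun v hv => absurd hv (Finset.notMem_empty v))
  | insert v₀ B' hv₀ ih =>
    intro x hconj hx
    by_cases hS : v₀ ∈ S
    · apply ih x hconj
      intro w hw hB
      apply hx w hw
      intro v hv
      rcases Finset.mem_insert.1 hv with rfl | h
      · intro hvw
        exact hw ((hSS' w).2 ⟨v, hS, hvw⟩)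
      · exact hB v h
    · obtain ⟨T, hT, hT1, hT2⟩ := hloc v₀ hS x
        (fun w hw => hconj w (notMem_of_placeOver941 hSS' hS hw))
      have h1 : ∀ w : HeightOneSpectrum (𝓞 K'), w ∉ S' →
          T6.InU 0 (finGL305 w ((T⁻¹ * x)⁻¹ * T5.ratG δ * s.onG (T⁻¹ * x))) := by
        intro w hw
        rw [twConj_inv_mul941 s δ hT x]
        exact hconj w hw
      have h2 : ∀ w : HeightOneSpectrum (𝓞 K'), w ∉ S' →
          (∀ v ∈ B', ¬ PlaceOver K K' v w) → T6.InU 0 (finGL305 w (T⁻¹ * x)) := by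
        intro w hw hB
        by_cases hvw : PlaceOver K K' v₀ w
        · exact hT2 w hvw
        · rw [map_mul, map_inv, hT1 w hvw, inv_one, one_mul]
          apply hx w hw
          intro v hv
          rcases Finset.mem_insert.1 hv with rfl | h
          · exact hvw
          · exact hB v h
      obtain ⟨t', ht', hout⟩ := ih (T⁻¹ * x) h1 h2
      refine ⟨T * t', Subgroup.mul_mem _ hT ht', fun w hw => ?_⟩
      have e : (T * t')⁻¹ * x = t'⁻¹ * (T⁻¹ * x) := by group
      rw [e]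
      exact hout w hw

/-- **THE GLOBAL GLUE.** -/
theorem suppUp_glue941 (s : T5.AdelicAut K') (δ : GL (Fin 2) K')
    (S : Finset (HeightOneSpectrum (𝓞 K))) (S' : Finset (HeightOneSpectrum (𝓞 K')))
    (hSS' : IsOver305 S S')
    (hloc : ∀ v : HeightOneSpectrum (𝓞 K), v ∉ S → LocSuppUp941 (K := K) s δ v)
    (x : G K') (hx : OutT305 S' (x⁻¹ * T5.ratG δ * s.onG x)) :
    ∃ t : G K', t ∈ tA305 s δ ∧ OutT305 S' (t⁻¹ * x) := by
  classical
  obtain ⟨t, ht, hout⟩ := suppUp_aux941 s δ S S' hSS' hloc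
    ((finite_nonint941 x).toFinset.image (under941 K)) x ((outT_iff941 S' _).1 hx)
    (fun w _ hB => by
      by_contra h
      refine hB (under941 K w) ?_ (placeOver_under941 w)
      exact Finset.mem_image.2 ⟨w, (Set.Finite.mem_toFinset _).2 h, rfl⟩)
  exact ⟨t, ht, (outT_iff941 S' _).2 hout⟩

/-! ## The leaf from the local statement -/

variable (K K')

/-- **THE LOCAL STATEMENT**: under the hypotheses of `H340.SuppUpC340`, the local-to-global
statement at every place `v ∉ S`. -/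
def LocSuppUpC941 : Prop :=
  T6.T6Out →
  ∀ D : CompData K K', IsCompData D → IsCycExt K K' D.l → D.l ≠ 2 → TotCplx K →
    ∀ (T₀ : Finset (HeightOneSpectrum (𝓞 K))), UnramOut305 (K' := K') T₀ →
    ∀ (S : Finset (HeightOneSpectrum (𝓞 K))) (S' : Finset (HeightOneSpectrum (𝓞 K'))),
      T₀ ⊆ S → IsOver305 S S' →
    ∀ (δ : GL (Fin 2) K') (γ : GL (Fin 2) K), T6.IsEll γ →
      D.s.normUpTo D.l δ = Matrix.GeneralLinearGroup.map (algebraMap K K') γ →
      GoodOut305 S γ → IntOut305 S' δ →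
    ∀ v : HeightOneSpectrum (𝓞 K), v ∉ S → LocSuppUp941 (K := K) D.s δ v

/-- **`H340.SuppUpC340` from the local statement**, verbatim. -/
theorem suppUpC_of_loc941 (h : LocSuppUpC941 K K') : SuppUpC340 K K' := by
  intro hT6 D hD hC hl hK T₀ hT₀ S S' hTS hSS' δ γ hγ hN hG hI x hx
  exact suppUp_glue941 D.s δ S S' hSS'
    (fun v hv => h hT6 D hD hC hl hK T₀ hT₀ S S' hTS hSS' δ γ hγ hN hG hI v hv) x hx

end Fermat.Agent.LT.T7.H941

end
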