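import Mathlib
import Fermat.Agent.LT.T7.H941.SuppUpGlue
import Fermat.Agent.LT.T5.H415.AutT5
import Fermat.Agent.LT.T5.H942.NormG
import Fermat.Agent.LT.T6.H848.NormInj

/-!
# Row LT, tower T7, level 2, leaf T7.L2.1.C2.7.13.1.A2 `SuppUpC340` -- THE ADELIC KIT
(helper941, spare of row 2746)

OFF-MAIN.  ONE number field `F`, an adelic automorphism `s : T5.AdelicAut F`.  Nothing assumed.

* `sigN941 s m = σ_𝔸^m` on `GL₂(𝔸_F)` (a group homomorphism), `sigN_period941`: `σ_𝔸^l = 1`;
* a CHAIN of places `w : ℕ → places`, `w j = σ(w (j+1))`: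
  `chain_congr941`, `chain_val941`, `chain_inU941`: the component of `σ^m g` at `w n` is the
  transport of the component of `g` at `w (n+m)`;
* `TrivOut941 O g`: `g` is trivial at the infinite places and at the finite places outside `O`;
  stable under products, inverses, `σ` (`O` stable under `σ`);
* `eq_of_fibre941`: two elements which agree outside `O` and at the places of `O` are equal;
* `twN_ratG941`: `N_n(δ)` in `GL₂(𝔸_F)` is the image of `s.normUpTo n δ`.
-/

set_option autoImplicit false

open AutomorphicForm IsDedekindDomain NumberField MeasureTheory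

noncomputable section

namespace Fermat.Agent.LT.T7.H941

open Fermat.Agent.LT Fermat.Agent.LT.H556 Fermat.Agent.LT.H556.A0 Fermat.Agent.LT.T7
open Fermat.Agent.LT.T7.H305

/-! ## Local: `U(0)` -/

section Local

variable {k : Type} [Field k] [Valued k T6.Γ₀]

theorem inU_zero_iff941 (g : GL (Fin 2) k) :
    T6.InU 0 g ↔ (∀ i j : Fin 2, Valued.v ((g : Matrix (Fin 2) (Fin 2) k) i j) ≤ 1) ∧
      ∀ i j : Fin 2, Valued.v (((g⁻¹ : GL (Fin 2) k) : Matrix (Fin 2) (Fin 2) k) i j) ≤ 1 :=
  ⟨integral_of_inU941, fun h => T6.H288.H546.inU_zero_of_integral_h546 g h.1 h.2⟩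

end Local

section OneField

variable {F : Type} [Field F] [NumberField F]

/-! ## The powers of `σ` on `GL₂(𝔸_F)` -/

/-- `σ_𝔸^m` on `GL₂(𝔸_F)`. -/
def sigN941 (s : T5.AdelicAut F) : ℕ → (G F →* G F)
  | 0 => MonoidHom.id _
  | m + 1 => s.onG.comp (sigN941 s m)

theorem sigN_zero941 (s : T5.AdelicAut F) (g : G F) : sigN941 s 0 g = g := rfl

theorem sigN_succ941 (s : T5.AdelicAut F) (m : ℕ) (g : G F) :
    sigN941 s (m + 1) g = s.onG (sigN941 s m g) := rfl

theorem sigN_succ'941 (s : T5.AdelicAut F) (m : ℕ) (g : G F) :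
    sigN941 s (m + 1) g = sigN941 s m (s.onG g) := by
  induction m with
  | zero => rfl
  | succ m ih => rw [sigN_succ941, ih, sigN_succ941]

theorem sigN_add941 (s : T5.AdelicAut F) (m n : ℕ) (g : G F) :
    sigN941 s (m + n) g = sigN941 s m (sigN941 s n g) := by
  induction m with
  | zero => rw [Nat.zero_add]; rfl
  | succ m ih => rw [Nat.succ_add, sigN_succ941, ih, sigN_succ941]

theorem sigN_iterate941 (s : T5.AdelicAut F) (m : ℕ) (g : G F) :
    sigN941 s m g = (⇑s.onG)^[m] g := by
  induction m with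
  | zero => rfl
  | succ m ih => rw [sigN_succ941, ih, Function.iterate_succ_apply']

theorem sigN_period941 (s : T5.AdelicAut F) (l : ℕ) (k : Subfield F)
    (hc : T5.IsCyclicOfDegree s l k) (g : G F) : sigN941 s l g = g := by
  rw [sigN_iterate941]
  exact T5.H415.onG_iterate415 s l k hc g

theorem sigN_mul_period941 (s : T5.AdelicAut F) (l : ℕ) (k : Subfield F)
    (hc : T5.IsCyclicOfDegree s l k) (q : ℕ) (g : G F) : sigN941 s (q * l) g = g := by
  induction q with
  | zero => rw [Nat.zero_mul]; rfl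
  | succ q ih => rw [Nat.succ_mul, sigN_add941, sigN_period941 s l k hc, ih]

theorem sigN_mod941 (s : T5.AdelicAut F) (l : ℕ) (k : Subfield F)
    (hc : T5.IsCyclicOfDegree s l k) (a : ℕ) (g : G F) :
    sigN941 s (a % l) g = sigN941 s a g := by
  conv_rhs => rw [← Nat.mod_add_div a l, sigN_add941, Nat.mul_comm,
    sigN_mul_period941 s l k hc]

theorem sigN_ratG941 (s : T5.AdelicAut F) (δ : GL (Fin 2) F) :
    s.onG (T5.ratG δ) = T5.ratG (s.onRat δ) :=
  T5.H942.onG_ratG942 s δ

/-- `N_n(δ)` in `GL₂(𝔸_F)` is the image of `s.normUpTo n δ`. -/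
theorem twN_ratG941 (s : T5.AdelicAut F) (n : ℕ) (δ : GL (Fin 2) F) :
    T6.twN s.onG n (T5.ratG δ) = T5.ratG (s.normUpTo n δ) := by
  induction n with
  | zero =>
    show (1 : G F) = T5.ratG 1
    rw [map_one]
  | succ n ih =>
    show T5.ratG δ * s.onG (T6.twN s.onG n (T5.ratG δ))
      = T5.ratG (δ * s.onRat (s.normUpTo n δ))
    rw [ih, sigN_ratG941, map_mul]

/-! ## Chains of places -/

section Chain

variable (s : T5.AdelicAut F) (w : ℕ → HeightOneSpectrum (𝓞 F))
  (hrel : ∀ j : ℕ, T5.PlaceRel s (w (j + 1)) (w j))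

include hrel

theorem chain_congr941 (m : ℕ) : ∀ (n : ℕ) (g g' : G F),
    finComp (w (n + m)) g = finComp (w (n + m)) g' →
    finComp (w n) (sigN941 s m g) = finComp (w n) (sigN941 s m g') := by
  induction m with
  | zero => intro n g g' h; exact h
  | succ m ih =>
    intro n g g' h
    rw [sigN_succ941, sigN_succ941]
    refine T5.H415.finComp_onG_congr415 s (w (n + 1)) (w n) (hrel n) _ _ ?_
    apply ih (n + 1)
    have e : n + 1 + m = n + (m + 1) := by omega
    rw [e]
    exact h

theorem chain_val941 (m : ℕ) : ∀ (n : ℕ) (g : G F) (a b : Fin 2),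
    Valued.v (finComp (w n) (sigN941 s m g) a b) = Valued.v (finComp (w (n + m)) g a b) := by
  induction m with
  | zero => intro n g a b; rfl
  | succ m ih =>
    intro n g a b
    rw [sigN_succ941, T5.H415.valued_onG415 s (w (n + 1)) (w n) (hrel n), ih (n + 1)]
    have e : n + 1 + m = n + (m + 1) := by omega
    rw [e]

theorem chain_inU941 (m n : ℕ) (g : G F) :
    T6.InU 0 (finGL305 (w n) (sigN941 s m g)) ↔ T6.InU 0 (finGL305 (w (n + m)) g) := by
  rw [inU_zero_iff941, inU_zero_iff941]
  have h1 : ∀ (h : G F) (a b : Fin 2),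
      Valued.v (((finGL305 (w n) (sigN941 s m h) : GL (Fin 2) ((w n).adicCompletion F)) :
        Matrix (Fin 2) (Fin 2) ((w n).adicCompletion F)) a b)
      = Valued.v (((finGL305 (w (n + m)) h : GL (Fin 2) ((w (n + m)).adicCompletion F)) :
        Matrix (Fin 2) (Fin 2) ((w (n + m)).adicCompletion F)) a b) := by
    intro h a b
    rw [finGL_val941, finGL_val941]
    exact chain_val941 s w hrel m n h a b
  constructor
  · rintro ⟨ha, hb⟩
    refine ⟨fun a b => ?_, fun a b => ?_⟩
    · rw [← h1]; exact ha a b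
    · rw [← map_inv, ← h1, map_inv, map_inv]; exact hb a b
  · rintro ⟨ha, hb⟩
    refine ⟨fun a b => ?_, fun a b => ?_⟩
    · rw [h1]; exact ha a b
    · rw [← map_inv, ← map_inv, h1, map_inv]; exact hb a b

end Chain

/-! ## Elements which are trivial outside a set of finite places -/

/-- `g` is trivial at the infinite places and at the finite places outside `O`. -/
def TrivOut941 (O : Set (HeightOneSpectrum (𝓞 F))) (g : G F) : Prop :=
  (∀ w : InfinitePlace F, H129.infCompHom129 w g = 1) ∧
    ∀ v : HeightOneSpectrum (𝓞 F), v ∉ O → finGL305 v g = 1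

theorem trivOut_one941 (O : Set (HeightOneSpectrum (𝓞 F))) : TrivOut941 O (1 : G F) :=
  ⟨fun _ => map_one _, fun _ _ => map_one _⟩

theorem trivOut_mul941 {O : Set (HeightOneSpectrum (𝓞 F))} {g h : G F}
    (hg : TrivOut941 O g) (hh : TrivOut941 O h) : TrivOut941 O (g * h) :=
  ⟨fun w => by rw [map_mul, hg.1 w, hh.1 w, mul_one],
    fun v hv => by rw [map_mul, hg.2 v hv, hh.2 v hv, mul_one]⟩

theorem trivOut_inv941 {O : Set (HeightOneSpectrum (𝓞 F))} {g : G F}
    (hg : TrivOut941 O g) : TrivOut941 O g⁻¹ :=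
  ⟨fun w => by rw [map_inv, hg.1 w, inv_one], fun v hv => by rw [map_inv, hg.2 v hv, inv_one]⟩

theorem trivOut_locFin941 {O : Set (HeightOneSpectrum (𝓞 F))} {w₀ : HeightOneSpectrum (𝓞 F)}
    (hw₀ : w₀ ∈ O) (t : GL (Fin 2) (w₀.adicCompletion F)) :
    TrivOut941 O (H129.locFin129 w₀ t) := by
  refine ⟨fun w => H129.infCompHom129_locFin129 w₀ t w, fun v hv => ?_⟩
  rw [finGL_eq941]
  refine H129.finCompHom129_locFin129_of_ne w₀ t ?_
  rintro rfl
  exact hv hw₀

theorem trivOut_iff941 (O : Set (HeightOneSpectrum (𝓞 F))) (g : G F) :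
    TrivOut941 O g ↔ T5.AgreeOutside O g 1 := by
  constructor
  · rintro ⟨h1, h2⟩
    refine ⟨fun w => ?_, fun v hv => ?_⟩
    · rw [T5.H415.infComp_eq_iff415]
      intro i j
      have e : H129.infCompHom129 w g = H129.infCompHom129 w 1 := by rw [h1 w, map_one]
      have := congrArg (fun u : GL (Fin 2) w.Completion =>
        (u : Matrix (Fin 2) (Fin 2) w.Completion) i j) e
      exact this
    · have e : finGL305 v g = finGL305 v 1 := by rw [h2 v hv, map_one]
      have := congrArg (fun u : GL (Fin 2) (v.adicCompletion F) =>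
        (u : Matrix (Fin 2) (Fin 2) (v.adicCompletion F))) e
      exact this
  · rintro ⟨h1, h2⟩
    refine ⟨fun w => ?_, fun v hv => ?_⟩
    · have e : H129.infCompHom129 w g = H129.infCompHom129 w 1 := by
        apply Units.ext
        refine Matrix.ext fun i j => ?_
        exact (T5.H415.infComp_eq_iff415 w g 1).1 (h1 w) i j
      rw [e, map_one]
    · have e : finGL305 v g = finGL305 v 1 := by
        apply Units.ext
        exact h2 v hv
      rw [e, map_one]

theorem trivOut_onG941 (s : T5.AdelicAut F) {O : Set (HeightOneSpectrum (𝓞 F))}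
    (hO : ∀ v v' : HeightOneSpectrum (𝓞 F), T5.PlaceRel s v v' → v' ∉ O → v ∉ O)
    {g : G F} (hg : TrivOut941 O g) : TrivOut941 O (s.onG g) := by
  rw [trivOut_iff941] at hg ⊢
  have := T5.H415.agreeOutside_onG415 s O hO g 1 hg
  rwa [map_one] at this

theorem trivOut_sigN941 (s : T5.AdelicAut F) {O : Set (HeightOneSpectrum (𝓞 F))}
    (hO : ∀ v v' : HeightOneSpectrum (𝓞 F), T5.PlaceRel s v v' → v' ∉ O → v ∉ O)
    (m : ℕ) {g : G F} (hg : TrivOut941 O g) : TrivOut941 O (sigN941 s m g) := by
  induction m with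
  | zero => exact hg
  | succ m ih => exact trivOut_onG941 s hO ih

/-- Two elements which agree outside `O` (up to an element trivial outside `O`) and at the
places of `O` are equal. -/
theorem eq_of_fibre941 {O : Set (HeightOneSpectrum (𝓞 F))} {g h : G F}
    (hout : TrivOut941 O (g⁻¹ * h))
    (hin : ∀ v : HeightOneSpectrum (𝓞 F), v ∈ O → finGL305 v g = finGL305 v h) : g = h := by
  have key : g⁻¹ * h = 1 := by
    apply H129.G_ext129
    · intro w
      rw [hout.1 w, map_one]
    · intro v
      rw [map_one]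
      by_cases hv : v ∈ O
      · rw [← finGL_eq941, map_mul, map_inv, hin v hv, inv_mul_cancel]
      · exact hout.2 v hv
  have := congrArg (fun u => g * u) key
  simpa using this.symm

/-- The twisted conjugate by an element trivial outside a `σ`-stable set. -/
theorem trivOut_twConj941 (s : T5.AdelicAut F) {O : Set (HeightOneSpectrum (𝓞 F))}
    (hO : ∀ v v' : HeightOneSpectrum (𝓞 F), T5.PlaceRel s v v' → v' ∉ O → v ∉ O)
    (d : G F) {T : G F} (hT : TrivOut941 O T) :
    TrivOut941 O ((T⁻¹ * d * s.onG T)⁻¹ * d) := by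
  have hσ := trivOut_onG941 s hO hT
  refine ⟨fun w => ?_, fun v hv => ?_⟩
  · rw [map_mul, map_inv, map_mul, map_mul, map_inv, hT.1 w, hσ.1 w]
    group
  · rw [map_mul, map_inv, map_mul, map_mul, map_inv, hT.2 v hv, hσ.2 v hv]
    group

end OneField

/-- The equation lemmas of the definitions of this file are realised here. -/
theorem eqns_realised_kit941 : True := by
  have _a1 := @sigN941.eq_1
  have _a2 := @sigN941.eq_2
  have _a3 := @sigN941.eq_def
  have _b1 := @TrivOut941.eq_1
  have _b2 := @TrivOut941.eq_def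
  trivial

end Fermat.Agent.LT.T7.H941

end
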