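import Mathlib
import Fermat.Agent.LT.T7.H941.SuppUpKit
import Fermat.Agent.LT.T7.H159.GoodUnitTw

/-!
# Row LT, tower T7, level 2, leaf T7.L2.1.C2.7.13.1.A2 `SuppUpC340` -- A PLACE FIXED BY `σ`
(helper941, spare of row 2746)

OFF-MAIN.  ONE number field `F`, `s : T5.AdelicAut F`, a finite place `w` with `σ(w) = w` and a
local automorphism `sw` of `F_w` with `(σ_𝔸 a)_w = sw(a_w)`.  Nothing assumed.

* `continuous_of_val941`, `ringHom_ext_dense941`: a ring homomorphism of `F_w` which preserves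
  the valuation is continuous; two such which agree on `F` are equal (for `sw` of `T6.InstExtC`
  and `sw` of `H305.SigmaLocC305`);
* `finGL_onG941`     : `(σ g)_w = sw(g_w)` on `GL₂`;
* `twNorm_finGL941`  : `N_n(g_w) = (N_n g)_w`; `twNorm_locG941 : N_n(δ_w) = (N_n δ)_w`;
* `inert_core941`    : `x_w = t u`, `t` in the twisted centraliser of `δ_w`, `u ∈ GL₂(𝒪_w)`
  ⟹ `T = locFin129 w t ∈ T_𝔸(δ)`, trivial outside `w`, `(T⁻¹ x)_w ∈ GL₂(𝒪_w)`.
-/

set_option autoImplicit false

open AutomorphicForm IsDedekindDomain NumberField MeasureTheory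

noncomputable section

namespace Fermat.Agent.LT.T7.H941

open Fermat.Agent.LT Fermat.Agent.LT.H556 Fermat.Agent.LT.H556.A0 Fermat.Agent.LT.T7
open Fermat.Agent.LT.T7.H305

/-! ## Valuation-preserving homomorphisms -/

section OneField

variable {F : Type} [Field F] [NumberField F]

/-- Every element of `F_w` is approximated by elements of `F`. -/
theorem exists_rat_near941 (w : HeightOneSpectrum (𝓞 F)) (x : w.adicCompletion F)
    (c : T6.Γ₀) (hc : c ≠ 0) :
    ∃ y : F, Valued.v (algebraMap F (w.adicCompletion F) y - x) < c := by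
  obtain ⟨ϖ, hϖ⟩ := w.valuation_exists_uniformizer F
  obtain ⟨n, hn⟩ : ∃ n : ℕ, (WithZero.exp (-(1 : ℤ))) ^ n < c := by
    obtain ⟨m, hm⟩ : ∃ m : ℤ, c = WithZero.exp m := ⟨WithZero.log c, (WithZero.exp_log hc).symm⟩
    refine ⟨(-m).toNat + 1, ?_⟩
    rw [hm, ← WithZero.exp_nsmul, WithZero.exp_lt_exp]
    have := Int.self_le_toNat (-m)
    simp only [nsmul_eq_mul, Nat.cast_add, Nat.cast_one]
    nlinarith
  set π : w.adicCompletion F := algebraMap F (w.adicCompletion F) (ϖ ^ n) with hπ
  have hvπ : Valued.v π = (WithZero.exp (-(1 : ℤ))) ^ n := by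
    have h1 : Valued.v π = w.valuation F (ϖ ^ n) :=
      HeightOneSpectrum.valuedAdicCompletion_eq_valuation' w (ϖ ^ n)
    rw [h1, map_pow, hϖ]
  have hπ0 : Valued.v π ≠ 0 := by
    rw [hvπ]
    exact pow_ne_zero _ (by simp)
  have hU : {z : w.adicCompletion F | Valued.v z = Valued.v π} ∈ nhds π :=
    Valued.locally_const hπ0
  have hcont : Continuous fun y : w.adicCompletion F => y - x := by fun_prop
  have hV : (fun y : w.adicCompletion F => y - x) ⁻¹'
      {z : w.adicCompletion F | Valued.v z = Valued.v π} ∈ nhds (x + π) := by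
    apply hcont.continuousAt
    show {z : w.adicCompletion F | Valued.v z = Valued.v π} ∈ nhds (x + π - x)
    have e : x + π - x = π := by ring
    rw [e]
    exact hU
  have hd : DenseRange (algebraMap F (w.adicCompletion F)) :=
    HeightOneSpectrum.denseRange_algebraMap F w
  obtain ⟨b, ⟨y, rfl⟩, hb⟩ := hd.inter_nhds_nonempty hV
  refine ⟨y, ?_⟩
  have hb' : Valued.v (algebraMap F (w.adicCompletion F) y - x) = Valued.v π := hb
  rw [hb', hvπ]
  exact hn

/-- Two valuation-preserving ring homomorphisms of `F_w` which agree on `F` are equal. -/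
theorem ringHom_ext_dense941 (w : HeightOneSpectrum (𝓞 F))
    (f g : w.adicCompletion F →+* w.adicCompletion F)
    (hf : ∀ x : w.adicCompletion F, Valued.v (f x) = Valued.v x)
    (hg : ∀ x : w.adicCompletion F, Valued.v (g x) = Valued.v x)
    (h : ∀ y : F, f (algebraMap F (w.adicCompletion F) y)
      = g (algebraMap F (w.adicCompletion F) y)) (x : w.adicCompletion F) : f x = g x := by
  by_contra hne
  have hd0 : Valued.v (f x - g x) ≠ 0 := by
    rw [Valuation.ne_zero_iff]
    exact sub_ne_zero.2 hne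
  obtain ⟨y, hy⟩ := exists_rat_near941 w x _ hd0
  have e : f x - g x = g (algebraMap F (w.adicCompletion F) y - x)
      - f (algebraMap F (w.adicCompletion F) y - x) := by
    rw [map_sub, map_sub, h y]
    ring
  have h1 : Valued.v (f x - g x) ≤ Valued.v (algebraMap F (w.adicCompletion F) y - x) := by
    conv_lhs => rw [e]
    refine le_trans (Valuation.map_sub _ _ _) ?_
    rw [hf, hg, max_self]
  exact absurd (lt_of_le_of_lt h1 hy) (lt_irrefl _)

variable (s : T5.AdelicAut F) (w : HeightOneSpectrum (𝓞 F))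
  (sw : w.adicCompletion F ≃+* w.adicCompletion F)
  (hsig : ∀ a : Adl F, T5.finHom w (s.σA a) = sw (T5.finHom w a))

include hsig

/-- `(σ g)_w = sw(g_w)`. -/
theorem finGL_onG941 (g : G F) : finGL305 w (s.onG g) = T6.glAut sw (finGL305 w g) := by
  apply Units.ext
  refine Matrix.ext fun i j => ?_
  exact hsig _

/-- `N_n(g_w) = (N_n g)_w`. -/
theorem twNorm_finGL941 (n : ℕ) (g : G F) :
    T6.twNorm sw n (finGL305 w g) = finGL305 w (T6.twN s.onG n g) := by
  induction n with
  | zero =>
    show (1 : GL (Fin 2) (w.adicCompletion F)) = finGL305 w 1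
    rw [map_one]
  | succ n ih =>
    show finGL305 w g * T6.glAut sw (T6.twNorm sw n (finGL305 w g))
      = finGL305 w (g * s.onG (T6.twN s.onG n g))
    rw [ih, map_mul, finGL_onG941 s w sw hsig]

/-- `N_n(δ_w) = (N_n δ)_w`. -/
theorem twNorm_locG941 (n : ℕ) (δ : GL (Fin 2) F) :
    T6.twNorm sw n (locG305 w δ) = locG305 w (s.normUpTo n δ) := by
  rw [← finGL_ratG941, twNorm_finGL941 s w sw hsig, twN_ratG941, finGL_ratG941]

/-- **A PLACE FIXED BY `σ`.** -/
theorem inert_core941 (hw : T5.PlaceRel s w w) (δ : GL (Fin 2) F) (x : G F)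
    (t u : GL (Fin 2) (w.adicCompletion F)) (ht : T6.InTwCent sw (locG305 w δ) t)
    (hu : T6.InU 0 u) (hxtu : finGL305 w x = t * u) :
    ∃ T : G F, T ∈ tA305 s δ ∧
      (∀ u' : HeightOneSpectrum (𝓞 F), u' ≠ w → finGL305 u' T = 1) ∧
      T6.InU 0 (finGL305 w (T⁻¹ * x)) := by
  have hO : ∀ v v' : HeightOneSpectrum (𝓞 F), T5.PlaceRel s v v' →
      v' ∉ ({w} : Set (HeightOneSpectrum (𝓞 F))) → v ∉ ({w} : Set (HeightOneSpectrum (𝓞 F))) := by
    intro v v' hvv' hv' hv
    have hv1 : v = w := hv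
    subst hv1
    exact hv' (H415.finRel_unique415 s.σ v v' v hvv' hw)
  have hTO : TrivOut941 ({w} : Set (HeightOneSpectrum (𝓞 F))) (H129.locFin129 w t) :=
    trivOut_locFin941 (Set.mem_singleton w) t
  have hTw : finGL305 w (H129.locFin129 w t) = t := by
    rw [finGL_eq941]
    exact H129.finCompHom129_locFin129 w t
  refine ⟨H129.locFin129 w t, ?_, fun u' hu' => hTO.2 u' hu', ?_⟩
  · show (H129.locFin129 w t)⁻¹ * T5.ratG δ * s.onG (H129.locFin129 w t) = T5.ratG δ
    refine eq_of_fibre941 (trivOut_twConj941 s hO _ hTO) fun v hv => ?_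
    have hv1 : v = w := hv
    subst hv1
    rw [map_mul, map_mul, map_inv, finGL_onG941 s v sw hsig, hTw, finGL_ratG941]
    exact ht
  · rw [map_mul, map_inv, hTw, hxtu]
    have e : t⁻¹ * (t * u) = u := by group
    rw [e]
    exact hu

end OneField

end Fermat.Agent.LT.T7.H941

end
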