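import Mathlib
import Fermat.Agent.LT.T7.H941.SuppUpKit
import Fermat.Agent.LT.T7.H159.GoodUnitSplit

/-!
# Row LT, tower T7, level 2, leaf T7.L2.1.C2.7.13.1.A2 `SuppUpC340` -- THE SPLIT PLACES
(helper941, spare of row 2746)

OFF-MAIN.  ONE number field `F`, `s : T5.AdelicAut F` cyclic of degree `l`, a chain of places
`w : ℕ → places` with `w j = σ(w (j+1))`, of period `l`, `w j ≠ w 0` for `0 < j < l`, and the
orbit `O = {w j}`.  Nothing assumed.

    split_core941 : δ_{w j} ∈ GL₂(𝒪), disc (N δ)_{w 0} a unit,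
      (x⁻¹ δ σ(x))_{w j} ∈ GL₂(𝒪) for all j
      ⟹ ∃ t ∈ T_𝔸(δ), trivial outside O, (t⁻¹ x)_{w j} ∈ GL₂(𝒪) for j < l

Proof.  THE COORDINATES `cmap941 g = ((σ^j g)_{w 0})_{j < l}` in `GL₂(F_{w 0})^l`: a group
homomorphism which carries `σ` to the cyclic shift (`cmap_onG941`), injective on the elements
which are trivial outside `O` (`cmap_inj941`), with the section `sec941` (`cmap_sec941`);
`U(0)` at `w j` is `U(0)` in the `j`-th coordinate (`chain_inU941`).  Then helper159
`goodUnit_split159`.  No identification of the completions is used.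
-/

set_option autoImplicit false

open AutomorphicForm IsDedekindDomain NumberField MeasureTheory

noncomputable section

namespace Fermat.Agent.LT.T7.H941

open Fermat.Agent.LT Fermat.Agent.LT.H556 Fermat.Agent.LT.H556.A0 Fermat.Agent.LT.T7
open Fermat.Agent.LT.T7.H305

variable {F : Type} [Field F] [NumberField F]

/-! ## The coordinates -/

/-- THE COORDINATES `g ↦ ((σ^j g)_{w₀})_{j < l}`. -/
def cmap941 (s : T5.AdelicAut F) (l : ℕ) (w₀ : HeightOneSpectrum (𝓞 F)) :
    G F →* (Fin l → GL (Fin 2) (w₀.adicCompletion F)) :=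
  MonoidHom.pi (fun j : Fin l => (finGL305 w₀).comp (sigN941 s j.val))

theorem cmap_apply941 (s : T5.AdelicAut F) (l : ℕ) (w₀ : HeightOneSpectrum (𝓞 F)) (g : G F)
    (j : Fin l) : cmap941 s l w₀ g j = finGL305 w₀ (sigN941 s j.val g) := rfl

theorem cmap_onG941 (s : T5.AdelicAut F) (l : ℕ) [NeZero l] (k : Subfield F)
    (hc : T5.IsCyclicOfDegree s l k) (w₀ : HeightOneSpectrum (𝓞 F)) (g : G F) :
    cmap941 s l w₀ (s.onG g) = T6.shiftHom l (cmap941 s l w₀ g) := by
  funext j
  show finGL305 w₀ (sigN941 s j.val (s.onG g)) = finGL305 w₀ (sigN941 s (j + 1).val g)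
  rw [← sigN_succ'941]
  have e : (j + 1 : Fin l).val = (j.val + 1) % l := by
    rw [Fin.val_add, Fin.val_one', Nat.add_mod_mod]
  rw [e, sigN_mod941 s l k hc]

theorem twN_cmap941 (s : T5.AdelicAut F) (l : ℕ) [NeZero l] (k : Subfield F)
    (hc : T5.IsCyclicOfDegree s l k) (w₀ : HeightOneSpectrum (𝓞 F)) (n : ℕ) (g : G F) :
    T6.twN (T6.shiftHom l) n (cmap941 s l w₀ g) = cmap941 s l w₀ (T6.twN s.onG n g) := by
  induction n with
  | zero =>
    show (1 : Fin l → GL (Fin 2) (w₀.adicCompletion F)) = cmap941 s l w₀ 1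
    rw [map_one]
  | succ n ih =>
    show cmap941 s l w₀ g * T6.shiftHom l (T6.twN (T6.shiftHom l) n (cmap941 s l w₀ g))
      = cmap941 s l w₀ (g * s.onG (T6.twN s.onG n g))
    rw [ih, ← cmap_onG941 s l k hc, map_mul]

/-! ## The section -/

/-- THE SECTION: the product of the `σ^{l-n}(locFin (t n))`, `n < N`. -/
def sec941 (s : T5.AdelicAut F) (l : ℕ) (w₀ : HeightOneSpectrum (𝓞 F))
    (t : Fin l → GL (Fin 2) (w₀.adicCompletion F)) : ℕ → G F
  | 0 => 1
  | n + 1 => sec941 s l w₀ t n *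
      (if h : n < l then sigN941 s (l - n) (H129.locFin129 w₀ (t ⟨n, h⟩)) else 1)

theorem sec_succ941 (s : T5.AdelicAut F) (l : ℕ) (w₀ : HeightOneSpectrum (𝓞 F))
    (t : Fin l → GL (Fin 2) (w₀.adicCompletion F)) (n : ℕ) (h : n < l) :
    sec941 s l w₀ t (n + 1)
      = sec941 s l w₀ t n * sigN941 s (l - n) (H129.locFin129 w₀ (t ⟨n, h⟩)) := by
  show sec941 s l w₀ t n *
      (if h : n < l then sigN941 s (l - n) (H129.locFin129 w₀ (t ⟨n, h⟩)) else 1) = _
  rw [dif_pos h]

theorem trivOut_sec941 (s : T5.AdelicAut F) (l : ℕ) {w₀ : HeightOneSpectrum (𝓞 F)}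
    (t : Fin l → GL (Fin 2) (w₀.adicCompletion F)) {O : Set (HeightOneSpectrum (𝓞 F))}
    (hO : ∀ v v' : HeightOneSpectrum (𝓞 F), T5.PlaceRel s v v' → v' ∉ O → v ∉ O)
    (hw₀ : w₀ ∈ O) (n : ℕ) : TrivOut941 O (sec941 s l w₀ t n) := by
  induction n with
  | zero => exact trivOut_one941 O
  | succ n ih =>
    show TrivOut941 O (sec941 s l w₀ t n *
      (if h : n < l then sigN941 s (l - n) (H129.locFin129 w₀ (t ⟨n, h⟩)) else 1))
    refine trivOut_mul941 ih ?_
    by_cases h : n < l
    · rw [dif_pos h]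
      exact trivOut_sigN941 s hO _ (trivOut_locFin941 hw₀ _)
    · rw [dif_neg h]
      exact trivOut_one941 O

section Chain

variable (s : T5.AdelicAut F) (l : ℕ) [NeZero l] (k : Subfield F)
  (hc : T5.IsCyclicOfDegree s l k) (w : ℕ → HeightOneSpectrum (𝓞 F))
  (hrel : ∀ j : ℕ, T5.PlaceRel s (w (j + 1)) (w j))
  (hper : ∀ n : ℕ, w (n + l) = w n)
  (hne : ∀ m : ℕ, 0 < m → m < l → w m ≠ w 0)

include hrel in
/-- The component at `w 0` of `σ^m` of a local element at `w 0` is trivial if `w m ≠ w 0`. -/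
theorem finGL_sigN_locFin941 (m : ℕ) (hm : w m ≠ w 0) (t : GL (Fin 2) ((w 0).adicCompletion F)) :
    finGL305 (w 0) (sigN941 s m (H129.locFin129 (w 0) t)) = 1 := by
  have h1 : finComp (w (0 + m)) (H129.locFin129 (w 0) t) = finComp (w (0 + m)) 1 := by
    rw [Nat.zero_add]
    have e : finGL305 (w m) (H129.locFin129 (w 0) t) = finGL305 (w m) 1 := by
      rw [map_one, finGL_eq941]
      exact H129.finCompHom129_locFin129_of_ne (w 0) t hm
    have := congrArg (fun u : GL (Fin 2) ((w m).adicCompletion F) =>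
      (u : Matrix (Fin 2) (Fin 2) ((w m).adicCompletion F))) e
    exact this
  have h2 := chain_congr941 s w hrel m 0 _ _ h1
  rw [map_one] at h2
  have e : finGL305 (w 0) (sigN941 s m (H129.locFin129 (w 0) t)) = finGL305 (w 0) 1 := by
    apply Units.ext
    exact h2
  rw [e, map_one]

include hc hrel hper hne in
/-- The coordinates of the section. -/
theorem cmap_sec941 (t : Fin l → GL (Fin 2) ((w 0).adicCompletion F)) (n : ℕ) (hn : n ≤ l)
    (i : Fin l) :
    cmap941 s l (w 0) (sec941 s l (w 0) t n) i = if i.val < n then t i else 1 := by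
  induction n with
  | zero =>
    show cmap941 s l (w 0) 1 i = _
    rw [map_one, if_neg (Nat.not_lt_zero _)]
    rfl
  | succ n ih =>
    have hnl : n < l := hn
    rw [sec_succ941 s l (w 0) t n hnl, map_mul, Pi.mul_apply, ih (Nat.le_of_lt hnl),
      cmap_apply941, ← sigN_add941]
    by_cases hin : i.val = n
    · have e1 : i.val + (l - n) = l := by omega
      have e2 : (⟨n, hnl⟩ : Fin l) = i := Fin.ext hin.symm
      rw [e1, sigN_period941 s l k hc, if_neg (by omega), if_pos (by omega), one_mul, e2,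
        finGL_eq941, H129.finCompHom129_locFin129]
    · have hm : w (i.val + (l - n)) ≠ w 0 := by
        rcases Nat.lt_or_ge i.val n with h | h
        · exact hne _ (by omega) (by omega)
        · have e : i.val + (l - n) = (i.val - n) + l := by omega
          rw [e, hper]
          exact hne _ (by omega) (by have := i.isLt; omega)
      rw [finGL_sigN_locFin941 s w hrel _ hm, mul_one]
      by_cases h : i.val < n
      · rw [if_pos h, if_pos (by omega)]
      · rw [if_neg h, if_neg (by omega)]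

include hc hrel hper in
/-- The coordinates are injective on the elements which are trivial outside the orbit. -/
theorem cmap_inj941 {O : Set (HeightOneSpectrum (𝓞 F))}
    (hOm : ∀ u : HeightOneSpectrum (𝓞 F), u ∈ O → ∃ j : ℕ, j < l ∧ u = w j) {g h : G F}
    (hout : TrivOut941 O (g⁻¹ * h))
    (hin : cmap941 s l (w 0) g = cmap941 s l (w 0) h) : g = h := by
  refine eq_of_fibre941 hout fun u hu => ?_
  obtain ⟨j, hj, rfl⟩ := hOm u hu
  have h0 : finGL305 (w 0) (sigN941 s j g) = finGL305 (w 0) (sigN941 s j h) :=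
    congrFun hin ⟨j, hj⟩
  have h1 : finComp (w (j + (l - j))) (sigN941 s j g)
      = finComp (w (j + (l - j))) (sigN941 s j h) := by
    have e : j + (l - j) = 0 + l := by omega
    rw [e, hper]
    have := congrArg (fun u : GL (Fin 2) ((w 0).adicCompletion F) =>
      (u : Matrix (Fin 2) (Fin 2) ((w 0).adicCompletion F))) h0
    exact this
  have h2 := chain_congr941 s w hrel (l - j) j _ _ h1
  rw [← sigN_add941, ← sigN_add941] at h2
  have e : l - j + j = l := by omega
  rw [e, sigN_period941 s l k hc, sigN_period941 s l k hc] at h2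
  apply Units.ext
  exact h2

/-! ## The split places -/

include hc hrel hper hne in
/-- **THE SPLIT PLACES.** -/
theorem split_core941 {O : Set (HeightOneSpectrum (𝓞 F))}
    (hO : ∀ v v' : HeightOneSpectrum (𝓞 F), T5.PlaceRel s v v' → v' ∉ O → v ∉ O)
    (hOw : w 0 ∈ O)
    (hOm : ∀ u : HeightOneSpectrum (𝓞 F), u ∈ O → ∃ j : ℕ, j < l ∧ u = w j)
    (δ : GL (Fin 2) F) (hδ : ∀ j : ℕ, T6.InU 0 (locG305 (w j) δ))
    (hd : Valued.v (T6.disc (locG305 (w 0) (s.normUpTo l δ))) = 1)
    (x : G F)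
    (hx : ∀ j : ℕ, T6.InU 0 (finGL305 (w j) (x⁻¹ * T5.ratG δ * s.onG x))) :
    ∃ t : G F, t ∈ tA305 s δ ∧
      (∀ u : HeightOneSpectrum (𝓞 F), u ∉ O → finGL305 u t = 1) ∧
      ∀ j : ℕ, j < l → T6.InU 0 (finGL305 (w j) (t⁻¹ * x)) := by
  have hcoord : ∀ (g : G F) (j : Fin l),
      T6.InU 0 (cmap941 s l (w 0) g j) ↔ T6.InU 0 (finGL305 (w j.val) g) := by
    intro g j
    rw [cmap_apply941, chain_inU941 s w hrel j.val 0 g, Nat.zero_add]
  have hΔ : ∀ j : Fin l, T6.InU 0 (cmap941 s l (w 0) (T5.ratG δ) j) := by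
    intro j
    rw [hcoord, finGL_ratG941]
    exact hδ j.val
  have hX : ∀ j : Fin l, T6.InU 0
      (((cmap941 s l (w 0) x)⁻¹ * cmap941 s l (w 0) (T5.ratG δ)
        * T6.shiftHom l (cmap941 s l (w 0) x)) j) := by
    intro j
    rw [← cmap_onG941 s l k hc, ← map_inv, ← map_mul, ← map_mul, hcoord]
    exact hx j.val
  have hd' : Valued.v (T6.disc
      (T6.twN (T6.shiftHom (k := (w 0).adicCompletion F) l) l
        (cmap941 s l (w 0) (T5.ratG δ)) 0)) = 1 := by
    rw [twN_cmap941 s l k hc, twN_ratG941, cmap_apply941]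
    show Valued.v (T6.disc (finGL305 (w 0) (T5.ratG (s.normUpTo l δ)))) = 1
    rw [finGL_ratG941]
    exact hd
  obtain ⟨t, u, ht, hu, hxtu⟩ := H159.goodUnit_split159 _ _ hΔ hd' hX
  have hTO : TrivOut941 O (sec941 s l (w 0) t l) := trivOut_sec941 s l t hO hOw l
  have hTc : cmap941 s l (w 0) (sec941 s l (w 0) t l) = t := by
    funext i
    rw [cmap_sec941 s l k hc w hrel hper hne t l le_rfl i, if_pos i.isLt]
  refine ⟨sec941 s l (w 0) t l, ?_, hTO.2, fun j hj => ?_⟩
  · show (sec941 s l (w 0) t l)⁻¹ * T5.ratG δ * s.onG (sec941 s l (w 0) t l) = T5.ratG δ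
    refine cmap_inj941 s l k hc w hrel hper hOm (trivOut_twConj941 s hO _ hTO) ?_
    rw [map_mul, map_mul, map_inv, cmap_onG941 s l k hc, hTc]
    exact ht
  · have h1 := (hcoord ((sec941 s l (w 0) t l)⁻¹ * x) ⟨j, hj⟩).1
    apply h1
    rw [map_mul, map_inv, hTc, hxtu]
    have e : t⁻¹ * (t * u) = u := by group
    rw [e]
    exact hu ⟨j, hj⟩

end Chain

/-- The equation lemmas of the definitions of this file are realised here. -/
theorem eqns_realised_split941 : True := by
  have _a1 := @sec941.eq_1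
  have _a2 := @sec941.eq_2
  have _a3 := @sec941.eq_def
  have _b1 := @cmap941.eq_1
  have _b2 := @cmap941.eq_def
  trivial

end Fermat.Agent.LT.T7.H941

end
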