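import Mathlib
import Fermat.Agent.LT.T7.H941.SuppUpSplit
import Fermat.Agent.LT.T7.H941.SuppUpInert
import Fermat.Agent.LT.T7.H816.UnitMatch
import Fermat.Agent.LT.T7.H558.SigmaLoc

/-!
# Row LT, tower T7, level 2, leaf T7.L2.1.C2.7.13.1.A2 `SuppUpC340` -- PROVED
(helper941, spare of row 2746)

OFF-MAIN.

    locSuppUpC941 K K' : LocSuppUpC941 K K'          (the local statement of `SuppUpGlue.lean`)
    suppUpC941 K K'    : H340.SuppUpC340 K K'        (VERBATIM)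

`v ∉ S` a finite place of `K`, `w₀` a place of `K'` over `v`.
* `σ(w₀) = w₀` (`locSuppUp_inert941`): `w₀` is the only place over `v` (helper816
  `unique_of_fix816`); the local automorphism `sw` of helper558 `sigmaLocC558` is the one of
  `T6.InstExtC` for the generator `σ` (`ringHom_ext_dense941`); `e = 1`, local fields
  (helper816 `e_eq_one816`, `localFields_inert816`); `disc N(δ_w) = i(disc γ_v)` is a unit;
  helper159 `goodUnit_up159` (the fundamental lemma for the unit element); `inert_core941`.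
* `σ(w₀) ≠ w₀` (`locSuppUp_split941`): the places over `v` are the `w j = σ^{-j} w₀`, `j < l`
  (helper816 `enum816`, `transFin816`, `enum_ne816`); `disc (N δ)_{w₀}` is a unit
  (`T6.InstSplitC` at `w₀`, residue degree one: helper816 `absNorm_eq_of_split816`);
  `split_core941` (helper159 `goodUnit_split159`).
-/

set_option autoImplicit false

open AutomorphicForm IsDedekindDomain NumberField MeasureTheory

noncomputable section

namespace Fermat.Agent.LT.T7.H941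

open Fermat.Agent.LT Fermat.Agent.LT.H556 Fermat.Agent.LT.H556.A0 Fermat.Agent.LT.T7
open Fermat.Agent.LT.T7.H305 Fermat.Agent.LT.T7.H340 Fermat.Agent.LT.T7.H816U
open Fermat.Agent.LT.T7.H557

variable {K K' : Type} [Field K] [NumberField K] [Field K'] [NumberField K'] [Algebra K K']

/-! ## The Galois group -/

/-- `σ⁻¹` is a generator, too. -/
theorem cycHyp_inv941 {σ : K' ≃+* K'} {l : ℕ} (h : CycHyp816 K σ l) : CycHyp816 K σ⁻¹ l where
  prime := h.prime
  pow_eq x := by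
    rw [inv_pow, h.pow_eq_one, inv_one]
    rfl
  fixed x := by
    rw [← h.fixed]
    constructor
    · intro hx
      have := congrArg σ hx
      rw [show σ (σ⁻¹ x) = x from σ.apply_symm_apply x] at this
      exact this.symm
    · intro hx
      show σ.symm x = x
      rw [RingEquiv.symm_apply_eq, hx]
  faithful := by
    obtain ⟨x, hx⟩ := h.faithful
    refine ⟨x, fun hx' => hx ?_⟩
    have := congrArg σ hx'
    rw [show σ (σ⁻¹ x) = x from σ.apply_symm_apply x] at this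
    exact this.symm

/-- `σ` as an element of the Galois group generates it. -/
theorem gen_zpowers941 [IsGalois K K'] {σ : K' ≃+* K'} {l : ℕ} (h : CycHyp816 K σ l)
    (hdeg : Module.finrank K K' = l) (t : K' ≃ₐ[K] K') :
    t ∈ Subgroup.zpowers
      (AlgEquiv.ofRingEquiv (f := σ) (fun x => h.map_alg x) : K' ≃ₐ[K] K') := by
  haveI : Fact l.Prime := ⟨h.prime⟩
  have hcard : Nat.card (K' ≃ₐ[K] K') = l := by rw [IsGalois.card_aut_eq_finrank, hdeg]
  have hne : (AlgEquiv.ofRingEquiv (f := σ) (fun x => h.map_alg x) : K' ≃ₐ[K] K') ≠ 1 := by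
    obtain ⟨x, hx⟩ := h.faithful
    intro e
    apply hx
    exact congrArg (fun f : K' ≃ₐ[K] K' => f x) e
  rw [zpowers_eq_top_of_prime_card hcard hne]
  trivial

/-! ## The enumeration -/

theorem enum_per941 {σ : K' ≃+* K'} {l : ℕ} (h : CycHyp816 K σ l)
    (w₀ : HeightOneSpectrum (𝓞 K')) (n : ℕ) : enum816 σ w₀ (n + l) = enum816 σ w₀ n := by
  show sigPl816 (σ⁻¹ ^ (n + l)) w₀ = sigPl816 (σ⁻¹ ^ n) w₀
  rw [pow_add, inv_pow σ l, h.pow_eq_one, inv_one, mul_one]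

theorem enum_mul941 {σ : K' ≃+* K'} {l : ℕ} (h : CycHyp816 K σ l)
    (w₀ : HeightOneSpectrum (𝓞 K')) (n q : ℕ) :
    enum816 σ w₀ (n + l * q) = enum816 σ w₀ n := by
  induction q with
  | zero => rfl
  | succ q ih =>
    have e : n + l * (q + 1) = n + l * q + l := by ring
    rw [e, enum_per941 h, ih]

theorem enum_mod941 {σ : K' ≃+* K'} {l : ℕ} (h : CycHyp816 K σ l)
    (w₀ : HeightOneSpectrum (𝓞 K')) (n : ℕ) : enum816 σ w₀ (n % l) = enum816 σ w₀ n := by
  conv_rhs => rw [← Nat.mod_add_div n l]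
  exact (enum_mul941 h w₀ (n % l) (n / l)).symm

/-! ## The two kinds of places -/

section Places

variable (hT6 : T6.T6Out) (D : CompData K K') (hD : IsCompData D) (hcyc : IsCycExt K K' D.l)
  {T₀ : Finset (HeightOneSpectrum (𝓞 K))} (hun : UnramOut305 (K' := K') T₀)
  {S : Finset (HeightOneSpectrum (𝓞 K))} {S' : Finset (HeightOneSpectrum (𝓞 K'))}
  (hTS : T₀ ⊆ S) (hSS' : IsOver305 S S')
  (δ : GL (Fin 2) K') (γ : GL (Fin 2) K)
  (hN : D.s.normUpTo D.l δ = Matrix.GeneralLinearGroup.map (algebraMap K K') γ)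
  (hG : GoodOut305 S γ) (hI : IntOut305 S' δ)
  {v : HeightOneSpectrum (𝓞 K)} (hv : v ∉ S)
  {w₀ : HeightOneSpectrum (𝓞 K')} (hw₀ : PlaceOver K K' v w₀)

include hT6 hD hcyc hun hTS hSS' hN hG hI hv hw₀

/-- **A place of `K'` fixed by `σ`.** -/
theorem locSuppUp_inert941 (hfix : sigPl816 D.s.σ w₀ = w₀) :
    LocSuppUp941 (K := K) D.s δ v := by
  obtain ⟨hNC, -, -, -, -, hIL, hIE, -, hEx, -, -, -, -, hFL, -, -, -, -⟩ := hT6
  haveI := hcyc.galois
  have hC : CycHyp816 K D.s.σ D.l := cycHyp_of816 D.s D.l D.k hD.cyc hD.base hcyc.prime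
  have huniq : ∀ w' : HeightOneSpectrum (𝓞 K'), PlaceOver K K' v w' → w' = w₀ :=
    fun w' hw' => unique_of_fix816 hC hcyc.degree hw₀ hw' hfix
  have hv₀ : v ∉ T₀ := fun h => hv (hTS h)
  obtain ⟨x₀, hx₀, hy₀⟩ := hun v hv₀ w₀ hw₀
  have hPR : T5.PlaceRel D.s w₀ w₀ := by
    have := placeRel_sigPl816 D.s w₀
    rwa [hfix] at this
  obtain ⟨sw, hrat, hval, hsig⟩ := (H558.sigmaLocC558 D.s).1 w₀ w₀ hPR
  obtain ⟨e, i, sw₀, hi, hs₀, hext₀, -⟩ := hIE K K'
    (AlgEquiv.ofRingEquiv (f := D.s.σ) (fun x => hC.map_alg x)) (gen_zpowers941 hC hcyc.degree)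
    (by rw [hcyc.degree]; exact hcyc.prime) v w₀ (placeOver_mem816 hw₀)
    (fun w' h' => huniq w' (placeOver_of_le816 h'))
  have he : e = 1 := e_eq_one816 e hext₀.e_pos i hi hext₀.val_i x₀ hx₀ hy₀
  subst he
  rw [hcyc.degree] at hext₀
  have hsw : sw₀ = sw := RingEquiv.ext (ringHom_ext_dense941 w₀
    (sw₀ : w₀.adicCompletion K' →+* w₀.adicCompletion K')
    (sw : w₀.adicCompletion K' →+* w₀.adicCompletion K') hext₀.val_s hval
    (fun y => (hs₀ y).trans (hrat y).symm))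
  subst hsw
  obtain ⟨hk, hk'⟩ := localFields_inert816 hIL hIE hcyc hw₀ huniq x₀ hx₀ hy₀
  intro x hx
  have hxw := hx w₀ hw₀
  rw [map_mul, map_mul, map_inv, finGL_onG941 D.s w₀ sw₀ hsig, finGL_ratG941] at hxw
  have hδ : T6.InU 0 (locG305 w₀ δ) := hI w₀ (notMem_of_placeOver941 hSS' hv hw₀)
  have hd : Valued.v (T6.disc (T6.twNorm sw₀ D.l (locG305 w₀ δ))) = 1 := by
    rw [twNorm_locG941 D.s w₀ sw₀ hsig, hN]
    have e1 : locG305 w₀ (Matrix.GeneralLinearGroup.map (algebraMap K K') γ)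
        = Matrix.GeneralLinearGroup.map i (locG305 v γ) := by
      apply Units.ext
      refine Matrix.ext fun a b => ?_
      exact (hi _).symm
    rw [e1, H159.disc_map159, hext₀.val_i, pow_one]
    exact (hG v hv).2
  obtain ⟨t, u, ht, hu, hxtu⟩ := H159.goodUnit_up159 hFL hEx hNC (Ideal.absNorm v.asIdeal) D.l
    i sw₀ hk hk' hext₀ hcyc.prime (locG305 w₀ δ) hδ hd (finGL305 w₀ x) hxw
  obtain ⟨T, hT, hT1, hT2⟩ := inert_core941 D.s w₀ sw₀ hsig hPR δ x t u ht hu hxtu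
  refine ⟨T, hT, fun u' hu' => hT1 u' (fun h => hu' (h ▸ hw₀)), fun u' hu' => ?_⟩
  rw [huniq u' hu']
  exact hT2

/-- **A place of `K'` moved by `σ`.** -/
theorem locSuppUp_split941 (hmove : sigPl816 D.s.σ w₀ ≠ w₀) :
    LocSuppUp941 (K := K) D.s δ v := by
  obtain ⟨-, -, -, -, -, -, -, hIS, -⟩ := hT6
  haveI := hcyc.galois
  haveI : NeZero D.l := ⟨hcyc.prime.ne_zero⟩
  have hC : CycHyp816 K D.s.σ D.l := cycHyp_of816 D.s D.l D.k hD.cyc hD.base hcyc.prime
  have hC' : CycHyp816 K D.s.σ⁻¹ D.l := cycHyp_inv941 hC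
  have hv₀ : v ∉ T₀ := fun h => hv (hTS h)
  have hw₁ : PlaceOver K K' v (sigPl816 D.s.σ w₀) := placeOver_sigPl816 D.s.σ hC.map_alg hw₀
  have hover : ∀ j : ℕ, PlaceOver K K' v (enum816 D.s.σ w₀ j) := enum_over816 hC hw₀
  have hrel : ∀ j : ℕ, T5.PlaceRel D.s (enum816 D.s.σ w₀ (j + 1)) (enum816 D.s.σ w₀ j) :=
    enum_rel816 D.s w₀
  have hper : ∀ n : ℕ, enum816 D.s.σ w₀ (n + D.l) = enum816 D.s.σ w₀ n := enum_per941 hC w₀
  have hne : ∀ m : ℕ, 0 < m → m < D.l → enum816 D.s.σ w₀ m ≠ enum816 D.s.σ w₀ 0 :=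
    fun m h0 hl => enum_ne816 hC hcyc.degree hw₀ hw₁ hw₀ hmove m h0 hl
  have hO : ∀ u u' : HeightOneSpectrum (𝓞 K'), T5.PlaceRel D.s u u' →
      u' ∉ {u : HeightOneSpectrum (𝓞 K') | PlaceOver K K' v u} →
      u ∉ {u : HeightOneSpectrum (𝓞 K') | PlaceOver K K' v u} := by
    intro u u' h hu' hu
    apply hu'
    have e : u' = sigPl816 D.s.σ u := HeightOneSpectrum.ext h
    rw [e]
    exact placeOver_sigPl816 D.s.σ hC.map_alg hu
  have hOm : ∀ u : HeightOneSpectrum (𝓞 K'),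
      u ∈ {u : HeightOneSpectrum (𝓞 K') | PlaceOver K K' v u} →
      ∃ j : ℕ, j < D.l ∧ u = enum816 D.s.σ w₀ j := by
    intro u hu
    obtain ⟨j, hj⟩ := transFin816 hC' hcyc.degree hw₀ hu
    refine ⟨j % D.l, Nat.mod_lt _ hcyc.prime.pos, ?_⟩
    rw [enum_mod941 hC, hj]
    rfl
  have hδ : ∀ j : ℕ, T6.InU 0 (locG305 (enum816 D.s.σ w₀ j) δ) :=
    fun j => hI _ (notMem_of_placeOver941 hSS' hv (hover j))
  have hd : Valued.v (T6.disc (locG305 (enum816 D.s.σ w₀ 0) (D.s.normUpTo D.l δ))) = 1 := by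
    obtain ⟨i, hi, hival⟩ := hIS K K' v (enum816 D.s.σ w₀ 0) (placeOver_mem816 (hover 0))
      (absNorm_eq_of_split816 hcyc (hover 0) hw₁ hw₀ hmove) (hun v hv₀ _ (hover 0))
    rw [hN]
    have e1 : locG305 (enum816 D.s.σ w₀ 0) (Matrix.GeneralLinearGroup.map (algebraMap K K') γ)
        = Matrix.GeneralLinearGroup.map
          (i : v.adicCompletion K →+* (enum816 D.s.σ w₀ 0).adicCompletion K')
          (locG305 v γ) := by
      apply Units.ext
      refine Matrix.ext fun a b => ?_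
      exact (hi _).symm
    rw [e1, H159.disc_map159]
    exact (hival _).trans (hG v hv).2
  intro x hx
  obtain ⟨t, ht, ht1, ht2⟩ := split_core941 D.s D.l D.k hD.cyc (enum816 D.s.σ w₀) hrel hper hne
    hO (hover 0) hOm δ hδ hd x (fun j => hx _ (hover j))
  refine ⟨t, ht, fun u hu => ht1 u hu, fun u hu => ?_⟩
  obtain ⟨j, hj, rfl⟩ := hOm u hu
  exact ht2 j hj

end Places

/-! ## The leaf -/

variable (K K')

/-- **THE LOCAL STATEMENT, PROVED.** -/
theorem locSuppUpC941 : LocSuppUpC941 K K' := by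
  intro hT6 D hD hcyc _ _ T₀ hun S S' hTS hSS' δ γ _ hN hG hI v hv
  obtain ⟨w₀, hw₀⟩ := exists_placeOver_557 (K' := K') v
  by_cases hfix : sigPl816 D.s.σ w₀ = w₀
  · exact locSuppUp_inert941 hT6 D hD hcyc hun hTS hSS' δ γ hN hG hI hv hw₀ hfix
  · exact locSuppUp_split941 hT6 D hD hcyc hun hTS hSS' δ γ hN hG hI hv hw₀ hfix

/-- **LEAF T7.L2.1.C2.7.13.1.A2 = `H340.SuppUpC340`, PROVED, VERBATIM.** -/
theorem suppUpC941 : SuppUpC340 K K' :=
  suppUpC_of_loc941 K K' (locSuppUpC941 K K')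

end Fermat.Agent.LT.T7.H941

end
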