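import Mathlib
import Fermat.Agent.LT.T7.H913.CutOnUpQSpec
import Fermat.Agent.LT.T7.H941.SuppUpLocal

/-!
# Row LT, tower T7, level 2 over `ℚ`, leaf T7.L2Q.1.H1.5.8.1.b.1 `SuppUpQC913`
(helper941, spare of row 2849)

OFF-MAIN.  `suppUpQC941 F : H913.SuppUpQC913 F`, VERBATIM (cut of helper913,
`CutOnUpQSpec.lean`), unconditional in the hypotheses of the Prop.

The proof of `H340.SuppUpC340` (`SuppUpLocal.lean`) does not use `D.l ≠ 2` nor `TotCplx K`:
the global glue `suppUp_glue941` and the two local statements `locSuppUp_inert941`,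
`locSuppUp_split941` with `K = ℚ`.
-/

set_option autoImplicit false

open AutomorphicForm IsDedekindDomain NumberField MeasureTheory

noncomputable section

namespace Fermat.Agent.LT.T7.H941

open Fermat.Agent.LT Fermat.Agent.LT.H556 Fermat.Agent.LT.H556.A0 Fermat.Agent.LT.T7
open Fermat.Agent.LT.T7.H305

/-- **LEAF `H913.SuppUpQC913`, PROVED, VERBATIM.** -/
theorem suppUpQC941 (F : Type) [Field F] [NumberField F] : H913.SuppUpQC913 F := by
  intro hT6 _ D hD hcyc _ T₀ hun S S' hTS hSS' δ γ _ hN hG hI x hx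
  refine suppUp_glue941 D.s δ S S' hSS' (fun v hv => ?_) x hx
  obtain ⟨w₀, hw₀⟩ := H557.exists_placeOver_557 (K' := F) v
  by_cases hfix : H816U.sigPl816 D.s.σ w₀ = w₀
  · exact locSuppUp_inert941 hT6 D hD hcyc hun hTS hSS' δ γ hN hG hI hv hw₀ hfix
  · exact locSuppUp_split941 hT6 D hD hcyc hun hTS hSS' δ γ hN hG hI hv hw₀ hfix

end Fermat.Agent.LT.T7.H941

end
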